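import Fermat.Agent.FiniteFlat.JShift
import Fermat.Agent.EichlerShimura.Specialization
import Fermat.Agent.RedTorsion.TwistRed
import Fermat.Agent.RedTorsion.RootSeries

/-!
# Reduction is injective on torsion prime to the residue characteristic

Let `m • D'` be the divisor of a function congruent to one, with `D'` reducing to zero, and let
`h` be an `m`-th root congruent to one of its expansion.  If `h` were outside the function field,
twisting the Riemann–Roch spaces of two divisors with disjoint reductions (supported over `j = 0`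
and over `j = 1`) by `h` would give a space of series with more independent reductions than room.
-/

set_option autoImplicit false
set_option maxHeartbeats 1000000
set_option synthInstance.maxHeartbeats 400000
set_option linter.unusedSectionVars false

noncomputable section

open IsLocalRing ModularCurve AlgebraicCurve
open Fermat.Agent.Arith Fermat.Agent.FF Fermat.Agent.RedTorsion Fermat.Agent.EichlerShimura

namespace Fermat.Agent.FiniteFlat

attribute [local instance 10000] serModule serSMul

variable {N : ℕ} [NeZero N] {A : ValuationSubring QBar} {ℓ : ℕ}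

local notation "Fb" => modularFunctionFieldBar N
local notation "Fk" => modularFunctionFieldFullC (ResidueField A) N

/-- A subspace of the function field, as a space of series. -/
def serSub {K : Type*} [Field K] {F : IntermediateField K (LaurentSeries K)}
    (W : Submodule K F) : Submodule K (LaurentSeries K) :=
  W.map F.val.toLinearMap

section Sub

variable {K : Type*} [Field K] {F : IntermediateField K (LaurentSeries K)}

theorem mem_serSub {W : Submodule K F} {y : LaurentSeries K} :
    y ∈ serSub W ↔ ∃ w ∈ W, (w : LaurentSeries K) = y := Submodule.mem_map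

theorem coe_mem_serSub {W : Submodule K F} {w : F} (hw : w ∈ W) :
    (w : LaurentSeries K) ∈ serSub W := mem_serSub.mpr ⟨w, hw, rfl⟩

theorem serSub_mono {W W' : Submodule K F} (h : W ≤ W') : serSub W ≤ serSub W' :=
  Submodule.map_mono h

theorem finrank_serSub (W : Submodule K F) :
    Module.finrank K (serSub W) = Module.finrank K W :=
  (Submodule.equivMapOfInjective _ (fun _ _ h => Subtype.ext h) W).finrank_eq.symm

theorem finiteDimensional_serSub (W : Submodule K F) [FiniteDimensional K W] :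
    FiniteDimensional K (serSub W) :=
  (Submodule.equivMapOfInjective _ (fun _ _ h => Subtype.ext h) W).finiteDimensional

theorem one_mem_serSub [IsFunctionField K F] {D : Divisor K F} (hD : 0 ≤ D) :
    (1 : LaurentSeries K) ∈ serSub (riemannRochSpace D) := by
  have h := coe_mem_serSub (algebraMap_mem_riemannRochSpace (K := K) (F := F) hD 1)
  rwa [IntermediateField.coe_algebraMap_apply, map_one] at h

/-- Separation of two divisors with disjoint supports. -/
theorem inf_sup_le_of_disjoint [IsFunctionField K F] {B₁ B₂ : Divisor K F} (hB₁ : 0 ≤ B₁)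
    (hB₂ : 0 ≤ B₂) (hd : ∀ v, B₁ v = 0 ∨ B₂ v = 0) {m : ℕ} (hm : 1 ≤ m) :
    serSub (riemannRochSpace (m • B₁)) ⊓
        (serSub (riemannRochSpace (B₁ + B₂)) ⊔ serSub (riemannRochSpace (m • B₂))) ≤
      serSub (riemannRochSpace B₁) := by
  have h1 : serSub (riemannRochSpace (B₁ + B₂)) ⊔ serSub (riemannRochSpace (m • B₂)) ≤
      serSub (riemannRochSpace (B₁ + m • B₂)) := by
    refine sup_le (serSub_mono (riemannRochSpace_mono (add_le_add le_rfl ?_)))
      (serSub_mono (riemannRochSpace_mono (le_add_of_nonneg_left hB₁)))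
    calc B₂ = 1 • B₂ := (one_nsmul _).symm
      _ ≤ m • B₂ := nsmul_le_nsmul_left hB₂ hm
  refine (inf_le_inf le_rfl h1).trans ?_
  rintro y ⟨hy1, hy2⟩
  obtain ⟨w, hw, rfl⟩ := mem_serSub.mp hy1
  obtain ⟨w', hw', e⟩ := mem_serSub.mp hy2
  obtain rfl : w' = w := Subtype.ext e
  refine coe_mem_serSub (mem_riemannRochSpace'.mpr fun v => ?_)
  rcases hd v with h | h
  · have h3 := mem_riemannRochSpace'.mp hw v
    rw [Finsupp.smul_apply, h, smul_zero] at h3
    rwa [h]
  · have h3 := mem_riemannRochSpace'.mp hw' v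
    rwa [Finsupp.add_apply, Finsupp.smul_apply, h, smul_zero, add_zero] at h3

end Sub

variable [IsFunctionField QBar (modularFunctionFieldBar N)]
  [IsFunctionField (ResidueField A) (modularFunctionFieldFullC (ResidueField A) N)]

/-- Functions with poles only over `j = c` have bounded expansions without polar part. -/
theorem bdd_of_mem_shiftPoles (hA : A.LiesOverPrime ℓ) (hℓ : ℓ.Prime) (c : A) {k : ℕ} {w : Fb}
    (hw : w ∈ riemannRochSpace (k • poles QBar (shiftInv (F := Fb) hFb (c : QBar)))) :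
    (w : LaurentSeries QBar) ∈ serBdd A ∧ (w : LaurentSeries QBar) ∈ orderNonneg QBar := by
  have hreg : ∀ v : Place QBar Fb, shiftInv (F := Fb) hFb (c : QBar) ∈ v.toValuationSubring →
      w ∈ v.toValuationSubring := by
    intro v hv
    have hy0 : shiftInv (F := Fb) hFb (c : QBar) ≠ 0 := fun e =>
      transcendental_shiftInv (F := Fb) hFb (c : QBar) (by rw [e]; exact isAlgebraic_zero)
    have h0 := (mem_iff_ord v hy0).mp hv
    have h1 := mem_riemannRochSpace'.mp hw v
    rw [Finsupp.smul_apply, poles_apply, max_eq_left (by omega), smul_zero, neg_zero] at h1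
    rcases eq_or_ne w 0 with rfl | hw0
    · exact zero_mem _
    · exact (mem_iff_ord v hw0).mpr (le_ord_of_mem_ordGe v hw0 h1)
  exact ⟨mem_serBdd_of_regular hFb hA hℓ (serInt_le_serBdd (shiftInv_serInt c).1) hreg,
    mem_orderNonneg_of_regular (shiftInv_mem_orderNonneg _ _) hreg⟩

theorem redSpace_serSub_le (hNA : (N : ResidueField A) ≠ 0) {D : Divisor QBar Fb}
    (hD : bigDeg (goodRed hNA) ≤ Divisor.degree D) :
    redSpace A (serSub (riemannRochSpace D)) ≤
      serSub (riemannRochSpace (redDiv (goodRed hNA) D)) := by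
  rintro _ ⟨f, hf, rfl⟩
  obtain ⟨w, hw, he⟩ := mem_serSub.mp hf
  obtain ⟨hm, hr⟩ := exists_mem_lattice hNA (f := w) (he ▸ f.2)
  rw [← redW_riemannRochSpace (goodRed hNA) hD]
  refine mem_serSub.mpr ⟨_, redF_mem_redW (goodRed hNA).toRedLattice ⟨w, hm⟩ hw, hr.trans ?_⟩
  exact congrArg (serRed A) (Subtype.ext he)

theorem finrank_serSub_redDiv (hNA : (N : ResidueField A) ≠ 0) {D : Divisor QBar Fb}
    (hD : bigDeg (goodRed hNA) ≤ Divisor.degree D) :
    Module.finrank (ResidueField A) (serSub (riemannRochSpace (redDiv (goodRed hNA) D))) =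
      Module.finrank QBar (serSub (riemannRochSpace D)) := by
  rw [finrank_serSub, finrank_serSub, ← redW_riemannRochSpace (goodRed hNA) hD,
    (finrank_redW (goodRed hNA).toRedLattice _).2]

theorem one_le_degree_poles_shiftInv (c : QBar) :
    1 ≤ Divisor.degree (poles QBar (shiftInv (F := Fb) hFb c)) := by
  rw [degree_poles (transcendental_shiftInv (F := Fb) hFb c)]
  have := finiteDimensional_adjoin (transcendental_shiftInv (F := Fb) hFb c)
  exact_mod_cast (Module.finrank_pos : 0 < Module.finrank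
    (IntermediateField.adjoin QBar ({shiftInv (F := Fb) hFb c} : Set Fb)) Fb)

/-- A function congruent to one with divisor `m • D'`, `D'` reducing to zero, is an `m`-th
power. -/
theorem exists_div_eq_of_congr (hA : A.LiesOverPrime ℓ) (hℓ : ℓ.Prime)
    (hNA : (N : ResidueField A) ≠ 0) {m : ℕ} (hm : IsUnit (m : A)) {f : Fb}
    {D : Divisor QBar Fb} (hdiv : div QBar f = m • D) (hdeg : Divisor.degree D = 0)
    (hred : redDiv (goodRed hNA) D = 0) (hs : (f : LaurentSeries QBar) ∈ serInt A)
    (ho : (f : LaurentSeries QBar) ∈ orderNonneg QBar) (h1 : serRed A ⟨_, hs⟩ = 1) :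
    ∃ w : Fb, w ≠ 0 ∧ div QBar w = D := by
  have hm0 : m ≠ 0 := by rintro rfl; simp at hm
  have hffin := mem_finCoeff_full (hF := hFb) f.2
  obtain ⟨h, hpow, hh0, hhi, hhfin, hh, hhred⟩ := exists_root_series hm hs ho h1 hffin
  set G := goodRed (N := N) hNA
  set k : ℕ := (bigDeg G).toNat
  have hk : bigDeg G ≤ k := Int.self_le_toNat _
  set B : A → Divisor QBar Fb := fun c => k • poles QBar (shiftInv (F := Fb) hFb (c : QBar))
    with hB
  set Bk : A → Divisor (ResidueField A) Fk := fun c => k • poles (ResidueField A)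
    (shiftInv (K := ResidueField A) (N := N) (F := Fk) rfl (residue A c)) with hBk
  have hB0 : ∀ c, 0 ≤ B c := fun c => nsmul_nonneg (poles_nonneg _) _
  have hBk0 : ∀ c, 0 ≤ Bk c := fun c => nsmul_nonneg (poles_nonneg _) _
  have hredB : ∀ c, redDiv G (B c) = Bk c := fun c => by
    simp only [hB, hBk, map_nsmul, redDiv_poles_shiftInv hNA, G]
  have hdegB : ∀ c, bigDeg G ≤ Divisor.degree (B c) := fun c => by
    rw [hB, map_nsmul, nsmul_eq_mul]
    have := one_le_degree_poles_shiftInv (N := N) (c : QBar)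
    nlinarith [Int.natCast_nonneg k]
  set E : Divisor QBar Fb := B 0 + B 1 with hE
  have hdegE : bigDeg G ≤ Divisor.degree E :=
    (hdegB 0).trans (degree_mono (le_add_of_nonneg_right (hB0 1)))
  have hdm : ∀ {D₀ : Divisor QBar Fb}, 0 ≤ D₀ → bigDeg G ≤ Divisor.degree D₀ →
      bigDeg G ≤ Divisor.degree (m • D₀) := fun {D₀} h₀ h₁ => by
    refine h₁.trans (degree_mono ?_)
    calc D₀ = 1 • D₀ := (one_nsmul _).symm
      _ ≤ m • D₀ := nsmul_le_nsmul_left h₀ (Nat.pos_of_ne_zero hm0)
  have hdD : ∀ {D₀ : Divisor QBar Fb}, bigDeg G ≤ Divisor.degree D₀ →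
      bigDeg G ≤ Divisor.degree (D₀ + D) := fun {D₀} h₁ => by rwa [map_add, hdeg, add_zero]
  have hrD : ∀ D₀ : Divisor QBar Fb, redDiv G (D₀ + D) = redDiv G D₀ := fun D₀ => by
    rw [map_add, hred, add_zero]
  have hUV : ∀ (D₀ : Divisor QBar Fb), ∀ y ∈ serSub (riemannRochSpace (D₀ + D)),
      (h * y) ^ m ∈ serSub (riemannRochSpace (m • D₀)) := by
    intro D₀ y hy
    obtain ⟨w, hw, rfl⟩ := mem_serSub.mp hy
    refine mem_serSub.mpr ⟨f * w ^ m, mem_riemannRochSpace'.mpr fun v => ?_, ?_⟩
    · have hf1 : f ∈ ordGe v ((m • D) v) :=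
        mem_ordGe_of_le v (by rw [← hdiv, div_apply])
      have hw1 := pow_mem_ordGe v (mem_riemannRochSpace'.mp hw v) m
      refine ordGe_anti v ?_ (mul_mem_ordGe v hf1 hw1)
      simp only [Finsupp.smul_apply, Finsupp.add_apply, nsmul_eq_mul]
      exact le_of_eq (by push_cast; ring)
    · rw [MulMemClass.coe_mul, SubmonoidClass.coe_pow, mul_pow, hpow]
  have hyE : ∀ c, (shiftInv (F := Fb) hFb ((c : A) : QBar) : LaurentSeries QBar) ∈ serBdd A :=
    fun c => serInt_le_serBdd (shiftInv_serInt c).1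
  have hU : ∀ u ∈ serSub (riemannRochSpace (m • E)), u ∈ serBdd A := by
    intro u hu
    obtain ⟨w, hw, rfl⟩ := mem_serSub.mp hu
    refine mem_serBdd_of_regular hFb hA hℓ
      (x := shiftInv (F := Fb) hFb ((0 : A) : QBar) + shiftInv (F := Fb) hFb ((1 : A) : QBar))
      ?_ fun v hv => ?_
    · rw [AddMemClass.coe_add]; exact add_mem (hyE 0) (hyE 1)
    have hmem : ∀ c : A, poles QBar (shiftInv (F := Fb) hFb (c : QBar)) v = 0 →
        shiftInv (F := Fb) hFb (c : QBar) ∈ v.toValuationSubring := fun c hc => by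
      rw [poles_apply] at hc
      refine (mem_iff_ord v fun (e : shiftInv (F := Fb) hFb (c : QBar) = 0) =>
        transcendental_shiftInv (F := Fb) hFb (c : QBar) (by rw [e]; exact isAlgebraic_zero)).mpr ?_
      omega
    have hzero : ∀ c : A, shiftInv (F := Fb) hFb (c : QBar) ∈ v.toValuationSubring →
        poles QBar (shiftInv (F := Fb) hFb (c : QBar)) v = 0 := fun c hc => by
      have := (mem_iff_ord v fun (e : shiftInv (F := Fb) hFb (c : QBar) = 0) =>
        transcendental_shiftInv (F := Fb) hFb (c : QBar) (by rw [e]; exact isAlgebraic_zero)).mp hc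
      rw [poles_apply]
      omega
    have hboth : poles QBar (shiftInv (F := Fb) hFb ((0 : A) : QBar)) v = 0 ∧
        poles QBar (shiftInv (F := Fb) hFb ((1 : A) : QBar)) v = 0 := by
      rcases poles_shiftInv_disjoint (F := Fb) hFb
          (c := ((0 : A) : QBar)) (c' := ((1 : A) : QBar)) (by simp) v with h0 | h0
      · refine ⟨h0, hzero 1 ?_⟩
        have := sub_mem hv (hmem 0 h0)
        rwa [add_sub_cancel_left] at this
      · refine ⟨hzero 0 ?_, h0⟩
        have := sub_mem hv (hmem 1 h0)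
        rwa [add_sub_cancel_right] at this
    have h3 := mem_riemannRochSpace'.mp hw v
    simp only [hE, hB, Finsupp.smul_apply, Finsupp.add_apply, hboth.1, hboth.2, smul_zero,
      add_zero, neg_zero] at h3
    rcases eq_or_ne w 0 with rfl | hw0
    · exact zero_mem _
    · exact (mem_iff_ord v hw0).mpr (le_ord_of_mem_ordGe v hw0 h3)
  have hfin : ∀ y ∈ serSub (riemannRochSpace (E + D)), y ∈ finCoeff QBar := by
    intro y hy
    obtain ⟨w, -, rfl⟩ := mem_serSub.mp hy
    exact mem_finCoeff_full (hF := hFb) w.2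
  have hden : ∀ y ∈ serSub (riemannRochSpace (E + D)),
      ∃ d ∈ serBdd A, d ≠ 0 ∧ d * y ∈ serBdd A := by
    intro y hy
    obtain ⟨w, -, rfl⟩ := mem_serSub.mp hy
    exact exists_bdd_den hFb w.2
  have hsc : ∀ y ∈ serSub (riemannRochSpace (E + D)), y ≠ 0 → IsScalable A y := by
    intro y hy hy0
    refine isScalable_of_bdd hA hℓ ?_ (hfin y hy) hy0
    obtain ⟨d, hd, hd0, hdy⟩ := hden y hy
    have hhy : h * y ∈ serBdd A := by
      refine mem_serBdd_of_monic_rel hA hℓ hd hd0 ?_ (D := m)
        (a := fun i => if i = 0 then -((h * y) ^ m) else 0) (fun i _ => ?_) ?_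
      · rw [mul_left_comm]
        exact mul_mem (serInt_le_serBdd hh) hdy
      · split_ifs
        · exact neg_mem (hU _ (hUV E y hy))
        · exact zero_mem _
      · simp only [ite_mul, zero_mul, Finset.sum_ite_eq', Finset.mem_range,
          Nat.pos_of_ne_zero hm0, if_true, pow_zero, mul_one, add_neg_cancel]
    have := mul_mem (serInt_le_serBdd hhi) hhy
    rwa [← mul_assoc, inv_mul_cancel₀ hh0, one_mul] at this
  have i0 := finiteDimensional_serSub (riemannRochSpace (B 0 + D))
  have i1 := finiteDimensional_serSub (riemannRochSpace (B 1 + D))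
  have i2 := finiteDimensional_serSub (riemannRochSpace (E + D))
  have j0 := finiteDimensional_serSub (riemannRochSpace (Bk 0))
  have j1 := finiteDimensional_serSub (riemannRochSpace (Bk 1))
  have j2 := finiteDimensional_serSub (riemannRochSpace (Bk 0 + Bk 1))
  have hrE : redDiv G E = Bk 0 + Bk 1 := by rw [hE, map_add, hredB, hredB]
  have hXle : ∀ c, redSpace A (serSub (riemannRochSpace (B c + D))) ≤
      serSub (riemannRochSpace (Bk c)) := fun c => by
    rw [← hredB c, ← hrD]
    exact redSpace_serSub_le hNA (hdD (hdegB c))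
  have hXrk : ∀ c, Module.finrank (ResidueField A) (serSub (riemannRochSpace (Bk c))) ≤
      Module.finrank QBar (serSub (riemannRochSpace (B c + D))) := fun c => by
    rw [← hredB c, ← hrD]
    exact (finrank_serSub_redDiv hNA (hdD (hdegB c))).le
  have hX : redSpace A (serSub (riemannRochSpace (E + D))) =
      serSub (riemannRochSpace (Bk 0 + Bk 1)) ∧
      Module.finrank QBar (serSub (riemannRochSpace (E + D))) ≤
        Module.finrank (ResidueField A) (serSub (riemannRochSpace (Bk 0 + Bk 1))) := by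
    have hle : redSpace A (serSub (riemannRochSpace (E + D))) ≤
        serSub (riemannRochSpace (Bk 0 + Bk 1)) := by
      rw [← hrE, ← hrD]
      exact redSpace_serSub_le hNA (hdD hdegE)
    have hrk := finrank_serSub_redDiv hNA (hdD hdegE)
    rw [hrD, hrE] at hrk
    obtain ⟨-, hfr⟩ := finrank_redSpace _ (serSub (riemannRochSpace (E + D))) rfl hsc
    exact ⟨Submodule.eq_of_le_of_finrank_le hle (by rw [hrk, hfr]), hrk.ge⟩
  have hY : ∀ c, redSpace A (serSub (riemannRochSpace (m • B c))) ≤
      serSub (riemannRochSpace (m • Bk c)) := fun c => by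
    rw [← hredB c, ← map_nsmul]
    exact redSpace_serSub_le hNA (hdm (hB0 c) (hdegB c))
  have hdis : ∀ v, Bk 0 v = 0 ∨ Bk 1 v = 0 := fun v => by
    rcases poles_shiftInv_disjoint (K := ResidueField A) (N := N) (F := Fk) rfl
      (c := residue A (0 : A)) (c' := residue A (1 : A)) (by simp) v with h0 | h0
    · exact Or.inl (by simp only [hBk, Finsupp.smul_apply, h0, smul_zero])
    · exact Or.inr (by simp only [hBk, Finsupp.smul_apply, h0, smul_zero])
  have hm1 : 1 ≤ m := Nat.pos_of_ne_zero hm0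
  have hle1 : ∀ c, Bk c ≤ m • Bk c := fun c => by
    calc Bk c = 1 • Bk c := (one_nsmul _).symm
      _ ≤ m • Bk c := nsmul_le_nsmul_left (hBk0 c) hm1
  obtain ⟨y, hy, hhy⟩ := exists_mul_root_eq_one hh hhi hhred hA hℓ hm hh0 hhfin
    (V₁ := serSub (riemannRochSpace (B 0 + D))) (V₂ := serSub (riemannRochSpace (B 1 + D)))
    (V := serSub (riemannRochSpace (E + D)))
    (U₁ := serSub (riemannRochSpace (m • B 0))) (U₂ := serSub (riemannRochSpace (m • B 1)))
    (U := serSub (riemannRochSpace (m • E)))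
    (X₁ := serSub (riemannRochSpace (Bk 0))) (X₂ := serSub (riemannRochSpace (Bk 1)))
    (X := serSub (riemannRochSpace (Bk 0 + Bk 1)))
    (Y₁ := serSub (riemannRochSpace (m • Bk 0))) (Y₂ := serSub (riemannRochSpace (m • Bk 1)))
    (serSub_mono (riemannRochSpace_mono (add_le_add (le_add_of_nonneg_right (hB0 1)) le_rfl)))
    (serSub_mono (riemannRochSpace_mono (add_le_add (le_add_of_nonneg_left (hB0 0)) le_rfl)))
    (one_mem_serSub (nsmul_nonneg (hB0 0) _)) (one_mem_serSub (nsmul_nonneg (hB0 1) _))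
    (hUV (B 0)) (hUV (B 1)) (hUV E) hU hfin hden (hXle 0) (hXle 1) hX.1 (hXrk 0) (hXrk 1) hX.2
    (one_mem_serSub (hBk0 0)) (one_mem_serSub (hBk0 1))
    (serSub_mono (riemannRochSpace_mono (hle1 0))) (serSub_mono (riemannRochSpace_mono (hle1 1)))
    (hY 0) (hY 1) (inf_sup_le_of_disjoint (hBk0 0) (hBk0 1) hdis hm1) (by
      refine le_trans (inf_le_inf le_rfl ?_)
        (inf_sup_le_of_disjoint (hBk0 1) (hBk0 0) (fun v => (hdis v).symm) hm1)
      rw [add_comm (Bk 1)]
      exact le_sup_left)
  obtain ⟨w, -, rfl⟩ := mem_serSub.mp hy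
  have hwh : ((w⁻¹ : Fb) : LaurentSeries QBar) = h := by
    rw [IntermediateField.coe_inv]
    exact (eq_inv_of_mul_eq_one_left hhy).symm
  have hw0 : w⁻¹ ≠ 0 := fun e => hh0 (by rw [← hwh, e, ZeroMemClass.coe_zero])
  refine ⟨w⁻¹, hw0, ?_⟩
  have hf : f = (w⁻¹) ^ m := Subtype.ext (by rw [SubmonoidClass.coe_pow, hwh, hpow])
  rw [hf, EichlerShimura.div_pow] at hdiv
  ext v
  have h4 := congrArg (fun D₀ => D₀ v) hdiv
  simp only [Finsupp.smul_apply, nsmul_eq_mul] at h4
  exact mul_left_cancel₀ (Nat.cast_ne_zero.mpr hm0) h4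

/-- Normalisation of a divisor whose reduction is principal and which is `m`-torsion: up to a
principal divisor, it reduces to zero and `m` times it is the divisor of a series congruent
to one. -/
theorem exists_normalised (hA : A.LiesOverPrime ℓ) (hℓ : ℓ.Prime)
    (hNA : (N : ResidueField A) ≠ 0) {m : ℕ} {D : Divisor QBar Fb}
    (hdeg : Divisor.degree D = 0) {f : Fb} (hf : f ≠ 0) (hdiv : div QBar f = m • D)
    {gb : Fk} (hgb : gb ≠ 0) (hred : redDiv (goodRed hNA) D = div (ResidueField A) gb) :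
    ∃ (D' : Divisor QBar Fb) (u f' : Fb) (hs : (f' : LaurentSeries QBar) ∈ serInt A),
      u ≠ 0 ∧ D = D' + div QBar u ∧ div QBar f' = m • D' ∧ redDiv (goodRed hNA) D' = 0 ∧
        (f' : LaurentSeries QBar) ∈ orderNonneg QBar ∧ serRed A ⟨_, hs⟩ = 1 := by
  set G := goodRed (N := N) hNA
  set k : ℕ := (bigDeg G).toNat
  have hk : bigDeg G ≤ k := Int.self_le_toNat _
  set B : Divisor QBar Fb := k • poles QBar (shiftInv (F := Fb) hFb ((0 : A) : QBar)) with hB
  set Bk : Divisor (ResidueField A) Fk := k • poles (ResidueField A)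
    (shiftInv (K := ResidueField A) (N := N) (F := Fk) rfl (residue A (0 : A))) with hBk
  have hredB : redDiv G B = Bk := by simp only [hB, hBk, map_nsmul, redDiv_poles_shiftInv hNA, G]
  have hdegB : bigDeg G ≤ Divisor.degree B := by
    rw [hB, map_nsmul, nsmul_eq_mul]
    have := one_le_degree_poles_shiftInv (N := N) ((0 : A) : QBar)
    nlinarith [Int.natCast_nonneg k]
  set Q := infPlace (K := ResidueField A) (N := N) (F := Fk) rfl
  have hBQ : Bk Q = 0 := by
    rw [hBk, Finsupp.smul_apply, poles_shiftInv_infPlace, smul_zero]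
  -- move the divisor away from the place of the expansion
  have hb := rrBound_lt_bigDeg G
  have hdDB : bigDeg G ≤ Divisor.degree (D + B) := by rwa [map_add, hdeg, zero_add]
  obtain ⟨ub, hub, hubQ⟩ := exists_notMem_ordGe (fun _ => ell_eq_of_rrBound_le' G)
    (D := redDiv G (D + B)) (by rw [degree_redDiv]; omega) Q
  have hub0 : ub ≠ 0 := fun e => hubQ (e ▸ zero_mem _)
  have hubord : Q.ord ub = -(redDiv G (D + B)) Q := by
    have h1 := le_ord_of_mem_ordGe Q hub0 (mem_riemannRochSpace'.mp hub Q)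
    have h2 : Q.ord ub < -(redDiv G (D + B)) Q + 1 :=
      not_le.mp fun e => hubQ (mem_ordGe_of_le Q e)
    omega
  rw [← redW_riemannRochSpace G hdDB] at hub
  obtain ⟨u, hu, hru⟩ := hub
  have hu0 : (u : Fb) ≠ 0 := fun e => hub0 (by rw [← hru, show u = 0 from Subtype.ext e, map_zero])
  set D₁ : Divisor QBar Fb := D + div QBar (u : Fb) with hD₁
  have hD₁B : 0 ≤ D₁ + B := Finsupp.le_def.mpr fun v => by
    have h1 := le_ord_of_mem_ordGe v hu0 (mem_riemannRochSpace'.mp hu v)
    simp only [hD₁, Finsupp.coe_zero, Pi.zero_apply, Finsupp.add_apply, div_apply] at h1 ⊢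
    omega
  set gk : Fk := gb * ub with hgk
  have hgk0 : gk ≠ 0 := mul_ne_zero hgb hub0
  have hru' : redDiv G (div QBar (u : Fb)) = div (ResidueField A) ub := by
    rw [redDiv_div G u (by rw [hru]; exact hub0), hru]
  have hred₁ : redDiv G D₁ = div (ResidueField A) gk := by
    rw [hD₁, map_add, hred, hru', hgk, FF.div_mul hgb hub0]
  have hgkQ : Q.ord gk = 0 := by
    have h1 := congrArg (fun E => E Q) hred₁
    simp only [hD₁, map_add, hru', Finsupp.add_apply, div_apply] at h1
    rw [map_add, hredB, Finsupp.add_apply, hBQ] at hubord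
    omega
  have hgkB : gk ∈ riemannRochSpace Bk := mem_riemannRochSpace'.mpr fun v => by
    refine mem_ordGe_of_le v ?_
    have h1 := Finsupp.le_def.mp (redDiv_nonneg G hD₁B) v
    simp only [map_add, hred₁, hredB, Finsupp.coe_zero, Pi.zero_apply, Finsupp.add_apply,
      div_apply] at h1
    omega
  rw [← hredB, ← redW_riemannRochSpace G hdegB] at hgkB
  obtain ⟨g, hg, hrg⟩ := hgkB
  have hg0 : (g : Fb) ≠ 0 := fun e => hgk0 (by rw [← hrg, show g = 0 from Subtype.ext e, map_zero])
  -- a primitive function with divisor `m • D₁`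
  obtain ⟨c, f₁, hc, hf₁, hfe⟩ :=
    exists_primitive G.toRedLattice (mul_ne_zero hf (pow_ne_zero m hu0))
  have hf₁0 : (f₁ : Fb) ≠ 0 := fun e => hf₁ (by rw [show f₁ = 0 from Subtype.ext e, map_zero])
  have hdiv₁ : div QBar (f₁ : Fb) = m • D₁ := by
    rw [← div_smul hc hf₁0, ← hfe, FF.div_mul hf (pow_ne_zero m hu0), EichlerShimura.div_pow,
      hdiv, hD₁, nsmul_add]
  have hf₁B : (f₁ : Fb) ∈ riemannRochSpace
      ((m * k) • poles QBar (shiftInv (F := Fb) hFb ((0 : A) : QBar))) := by
    rw [mul_nsmul']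
    refine mem_riemannRochSpace'.mpr fun v => mem_ordGe_of_le v ?_
    have h1 := congrArg (fun E => E v) hdiv₁
    have h2 := Finsupp.le_def.mp (nsmul_nonneg hD₁B m) v
    simp only [div_apply] at h1
    rw [nsmul_add] at h2
    simp only [hB, Finsupp.coe_zero, Pi.zero_apply, Finsupp.add_apply] at h2
    omega
  obtain ⟨hf₁b, hf₁o⟩ := bdd_of_mem_shiftPoles hA hℓ 0 hf₁B
  obtain ⟨hgbd, hgo⟩ := bdd_of_mem_shiftPoles hA hℓ 0 hg
  obtain ⟨hsf, hrf⟩ := serInt_of_bdd hA hℓ hNA f₁ hf₁b
  obtain ⟨hsg, hrsg⟩ := serInt_of_bdd hA hℓ hNA g hgbd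
  rw [show redF G.toRedLattice g = gk from hrg] at hrsg
  obtain ⟨hgi, hgio⟩ := inv_mem_serInt hsg hgo (by
    rw [← hrsg]; exact (coeff_zero_ne_zero_of_ord rfl hgk0 hgkQ).2)
  -- the reduction of `f₁` is a constant multiple of `gk ^ m`
  obtain ⟨a, ha⟩ := eq_algebraMap_of_ord_nonneg (K := ResidueField A)
    (f := redF G.toRedLattice f₁ / gk ^ m) fun v => by
      rw [FF.ord_div v hf₁ (pow_ne_zero m hgk0), FF.ord_pow]
      have h1 := congrArg (fun E => E v) (redDiv_div G f₁ hf₁)
      simp only [hdiv₁, map_nsmul, hred₁, Finsupp.smul_apply, div_apply, nsmul_eq_mul] at h1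
      omega
  rw [div_eq_iff (pow_ne_zero m hgk0)] at ha
  obtain ⟨a, rfl⟩ := residue_surjective a
  have hau : IsUnit a := (residue_ne_zero_iff_isUnit a).mp fun e => hf₁ (by
    rw [ha, e, map_zero, zero_mul])
  obtain ⟨b, hab⟩ := isUnit_iff_exists_inv.mp hau
  have hb0 : (b : QBar) ≠ 0 := fun e => by
    rw [show b = 0 from Subtype.ext e, mul_zero] at hab
    exact zero_ne_one hab
  set f' : Fb := algebraMap QBar Fb (b : QBar) * (f₁ : Fb) * ((g : Fb)⁻¹) ^ m with hf'
  set sb : serInt A := ⟨_, algebraMap_mem_serInt b.2⟩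
  set sg : serInt A := ⟨_, hsg⟩
  set sgi : serInt A := ⟨_, hgi⟩
  have hcoe : ((sb * ⟨_, hsf⟩ * sgi ^ m : serInt A) : LaurentSeries QBar) =
      (f' : LaurentSeries QBar) := by
    rw [hf', MulMemClass.coe_mul, MulMemClass.coe_mul, SubmonoidClass.coe_pow,
      IntermediateField.coe_mul, IntermediateField.coe_mul, IntermediateField.coe_pow,
      IntermediateField.coe_inv, IntermediateField.coe_algebraMap_apply]
  have hsf' : (f' : LaurentSeries QBar) ∈ serInt A := by
    rw [← hcoe]; exact Subtype.mem _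
  refine ⟨D₁ - div QBar (g : Fb), (g : Fb) * (u : Fb)⁻¹, f', hsf',
    mul_ne_zero hg0 (inv_ne_zero hu0), ?_, ?_, ?_, ?_, ?_⟩
  · rw [FF.div_mul hg0 (inv_ne_zero hu0), FF.div_inv, hD₁]
    abel
  · rw [hf', FF.div_mul (mul_ne_zero ((_root_.map_ne_zero _).mpr hb0) hf₁0)
        (pow_ne_zero m (inv_ne_zero hg0)), ← Algebra.smul_def, div_smul hb0 hf₁0, hdiv₁,
      EichlerShimura.div_pow, FF.div_inv, nsmul_sub, smul_neg]
    exact (sub_eq_add_neg _ _).symm
  · rw [map_sub, hred₁, redDiv_div G g (by rw [hrg]; exact hgk0),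
      show redF G.toRedLattice g = gk from hrg, sub_self]
  · rw [← hcoe, MulMemClass.coe_mul, MulMemClass.coe_mul, SubmonoidClass.coe_pow]
    exact mul_mem (mul_mem (algebraMap_mem_orderNonneg _) hf₁o) (pow_mem hgio m)
  · have hgg : sg * sgi = 1 := Subtype.ext (mul_inv_cancel₀ fun e => hg0 (Subtype.ext e))
    have h1 := congrArg (serRed A) hgg
    rw [map_mul, map_one, ← hrsg] at h1
    refine (congrArg (serRed A) (Subtype.ext hcoe.symm :
      (⟨_, hsf'⟩ : serInt A) = sb * ⟨_, hsf⟩ * sgi ^ m)).trans ?_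
    rw [map_mul, map_mul, map_pow, serRed_algebraMap b.2, ← hrf, ha, IntermediateField.coe_mul,
      IntermediateField.coe_pow, IntermediateField.coe_algebraMap_apply, ← mul_assoc, ← map_mul,
      ← map_mul, show (⟨(b : QBar), b.2⟩ : A) = b from rfl, mul_comm b a, hab, map_one, map_one,
      one_mul, ← mul_pow, h1, one_pow]

end Fermat.Agent.FiniteFlat

namespace Fermat.Agent.EichlerShimura

open Fermat.Agent.FiniteFlat

/-- Reduction is injective on torsion prime to the residue characteristic. -/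
theorem injectiveOnTorsion (N : ℕ) [NeZero N] : InjectiveOnTorsion N := by
  intro ℓ hℓf hℓN A hA h m hm z hmz hz
  have hℓ : ℓ.Prime := hℓf.out
  have hNA : (N : ResidueField A) ≠ 0 := natCast_ne_zero hℓ hℓN hA
  have : IsFunctionField QBar (modularFunctionFieldBar N) := isFunctionField_bar
  have : IsFunctionField (ResidueField A) (modularFunctionFieldFullC (ResidueField A) N) :=
    isFunctionField_full rfl hNA
  have := Arith.residueField_charP hA hℓ
  have hm0 : m ≠ 0 := fun e => hm (e ▸ dvd_zero ℓ)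
  have hmA : IsUnit (m : A) := by
    refine (residue_ne_zero_iff_isUnit _).mp ?_
    rw [map_natCast, Ne, CharP.cast_eq_zero_iff (ResidueField A) ℓ]
    exact hm
  obtain ⟨D, rfl⟩ := Pic0.mk_surjective z
  rw [reductionModL_mk_of_torsion (seriesCompat hNA) h.choose_spec.2 D hm0
    (by rwa [natCast_zsmul])] at hz
  obtain ⟨gb, hgb0, hgb⟩ := AddSubgroup.mem_addSubgroupOf.mp
    ((QuotientAddGroup.eq_zero_iff _).mp hz)
  have hmz' : (QuotientAddGroup.mk (m • D) : Pic0 QBar (modularFunctionFieldBar N)) = 0 := by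
    rw [QuotientAddGroup.mk_nsmul]; exact hmz
  obtain ⟨f, hf0, hf⟩ :=
    AddSubgroup.mem_addSubgroupOf.mp ((QuotientAddGroup.eq_zero_iff _).mp hmz')
  obtain ⟨D', u, f', hs, hu0, hD, hdiv', hred', ho, h1⟩ := exists_normalised hA hℓ hNA
    (D := D.1) (Divisor.mem_degZero.mp D.2) hf0 (Finsupp.ext fun v => (hf v).symm) hgb0
    (Finsupp.ext fun v => hgb v)
  have hdeg' : Divisor.degree D' = 0 := by
    have h2 := congrArg Divisor.degree hD
    rw [Divisor.mem_degZero.mp D.2, map_add, degree_div, add_zero] at h2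
    exact h2.symm
  obtain ⟨w, hw0, hw⟩ := exists_div_eq_of_congr hA hℓ hNA hmA hdiv' hdeg' hred' hs ho h1
  refine (QuotientAddGroup.eq_zero_iff D).mpr (AddSubgroup.mem_addSubgroupOf.mpr
    ⟨w * u, mul_ne_zero hw0 hu0, fun v => ?_⟩)
  rw [hD, ← hw, ← FF.div_mul hw0 hu0, FF.div_apply]

end Fermat.Agent.EichlerShimura

end
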