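import Fermat.Agent.FiniteFlat.Operation

/-!
# Coordinates of the spaces `L(E - D)` in a frame of `L(E)`

For effective divisors `D` of degree `g` the space `L(E - D)` is a subspace of `L(E)` of constant
dimension. In a frame of `L(E)` and for a set of pivots valid for the reduced space it has a unique
basis which is the standard one at the pivots; its coordinates are integral. A family is regular
over an algebra of functions exactly when its coordinates lie in the algebra.
-/

set_option autoImplicit false
set_option maxHeartbeats 1000000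
set_option synthInstance.maxHeartbeats 400000
set_option linter.unusedSectionVars false

noncomputable section

open IsLocalRing AlgebraicCurve
open Fermat.Agent.Arith Fermat.Agent.FF

namespace Fermat.Agent.FiniteFlat.Grass

/-- A subspace of `kⁿ` of dimension `r` has a set of `r` pivots. -/
theorem exists_pivot {k : Type*} [Field k] {n : ℕ} (V : Submodule k (Fin n → k)) {r : ℕ}
    (hr : Module.finrank k V = r) :
    ∃ J : Fin r → Fin n, Function.Bijective fun c : V => fun t => (c : Fin n → k) (J t) := by
  classical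
  let p : Fin n → Module.Dual k V := fun i => (LinearMap.proj i).comp V.subtype
  have htop : Submodule.span k (Set.range p) = ⊤ := by
    by_contra hne
    obtain ⟨φ, hφ, hle⟩ := Submodule.exists_le_ker_of_lt_top _ (lt_top_iff_ne_top.mpr hne)
    obtain ⟨v, rfl⟩ := (Module.evalEquiv k V).surjective φ
    refine hφ ?_
    have hv : v = 0 := Subtype.ext (funext fun i => by
      have := hle (Submodule.subset_span ⟨i, rfl⟩)
      simpa [p] using this)
    rw [hv, map_zero]
  obtain ⟨t, ht, htspan, htli⟩ := exists_linearIndependent k (Set.range p)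
  rw [htop] at htspan
  let Bt : Module.Basis t k (Module.Dual k V) := Module.Basis.mk htli (by
    rw [Subtype.range_coe, htspan])
  haveI := FiniteDimensional.fintypeBasisIndex Bt
  have hcard : Fintype.card t = r := by
    rw [← Module.finrank_eq_card_basis Bt, Subspace.dual_finrank_eq, hr]
  let et : Fin r ≃ t := (Fintype.equivFinOfCardEq hcard).symm
  choose J hJ using fun a : Fin r => ht (et a).2
  let f : V →ₗ[k] (Fin r → k) := LinearMap.pi fun a => p (J a)
  have hinj : Function.Injective f := by
    rw [injective_iff_map_eq_zero]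
    intro v hv
    refine (Module.forall_dual_apply_eq_zero_iff k v).mp fun φ => ?_
    have : φ = ∑ a : t, Bt.repr φ a • Bt a := (Bt.sum_repr φ).symm
    rw [this, LinearMap.sum_apply]
    refine Finset.sum_eq_zero fun a _ => ?_
    have h1 : p (J (et.symm a)) v = 0 := congrFun hv (et.symm a)
    rw [hJ, et.apply_symm_apply] at h1
    rw [LinearMap.smul_apply, Module.Basis.mk_apply, h1, smul_zero]
  have hbij : Function.Bijective f := ⟨hinj, (LinearMap.injective_iff_surjective_of_finrank_eq_finrank
    (by rw [hr, Module.finrank_fintype_fun_eq_card, Fintype.card_fin])).mp hinj⟩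
  exact ⟨J, hbij⟩

variable {A : ValuationSubring QBar} {F : Type*} [Field F] [Algebra QBar F]
  {Fk : Type*} [Field Fk] [Algebra (ResidueField A) Fk]
  [IsFunctionField QBar F] [IsFunctionField (ResidueField A) Fk]
  {h : GoodRed A F Fk} {E : Divisor QBar F} {n : ℕ}

/-- A frame of `L(E)` with independent reductions, for a divisor of large degree. -/
structure Frame (h : GoodRed A F Fk) (E : Divisor QBar F) (n : ℕ) where
  /-- the frame -/
  u : Fin n → h.S
  mem : ∀ i, (u i : F) ∈ riemannRochSpace E
  indep : LinearIndependent (ResidueField A) fun i => redF h.toRedLattice (u i)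
  span : riemannRochSpace (redDiv h E) ≤
    Submodule.span (ResidueField A) (Set.range fun i => redF h.toRedLattice (u i))
  nonneg : 0 ≤ E
  big : bigDeg h + 4 * genusFF QBar F ≤ Divisor.degree E

variable (fr : Frame h E n)

/-- The coordinates of the elements of `L(E - D)`. -/
def spaceQ (D : Divisor QBar F) : Submodule QBar (Fin n → QBar) :=
  (riemannRochSpace (E - D)).comap (Fintype.linearCombination QBar fun i => (fr.u i : F))

/-- The coordinates of the elements of the reduced space. -/
def spaceK (Db : Divisor (ResidueField A) Fk) : Submodule (ResidueField A) (Fin n → ResidueField A) :=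
  (riemannRochSpace (redDiv h E - Db)).comap
    (Fintype.linearCombination (ResidueField A) fun i => redF h.toRedLattice (fr.u i))

theorem mem_spaceQ {D : Divisor QBar F} {c : Fin n → QBar} :
    c ∈ spaceQ fr D ↔ ∑ i, c i • (fr.u i : F) ∈ riemannRochSpace (E - D) := by
  rw [spaceQ, Submodule.mem_comap, Fintype.linearCombination_apply]

theorem mem_spaceK {Db : Divisor (ResidueField A) Fk} {c : Fin n → ResidueField A} :
    c ∈ spaceK fr Db ↔
      ∑ i, c i • redF h.toRedLattice (fr.u i) ∈ riemannRochSpace (redDiv h E - Db) := by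
  rw [spaceK, Submodule.mem_comap, Fintype.linearCombination_apply]

theorem span_reduced : Submodule.span (ResidueField A)
    (Set.range fun i => redF h.toRedLattice (fr.u i)) = riemannRochSpace (redDiv h E) := by
  refine le_antisymm (Submodule.span_le.mpr ?_) fr.span
  rintro _ ⟨i, rfl⟩
  exact redW_le_redDiv E ⟨fr.u i, fr.mem i, rfl⟩

include fr in
theorem natCast_card : (n : ℤ) = Divisor.degree E + 1 - genusFF QBar F := by
  have h1 : Module.finrank (ResidueField A) (riemannRochSpace (redDiv h E)) = n := by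
    rw [← span_reduced fr, finrank_span_eq_card fr.indep, Fintype.card_fin]
  have h2 := rrBound_lt_bigDeg h
  have h3 := fr.big
  have h4 := ell_eq_of_rrBound_le' h (D := redDiv h E) (by rw [degree_redDiv]; omega)
  rw [degree_redDiv, genusFF_eq_of_goodRed h] at h4
  rw [← h1]
  exact h4

theorem linearIndependent_frame : LinearIndependent QBar fun i => (fr.u i : F) :=
  linearIndependent_of_redF h.toRedLattice fr.u fr.indep

include fr in
theorem finrank_frame : Fintype.card (Fin n) = Module.finrank QBar (riemannRochSpace E) := by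
  have h2 := rrBound_lt_bigDeg h
  have h3 := fr.big
  have h4 := ell_eq_of_rrBound_le h (D := E) (by omega)
  have h5 := natCast_card fr
  unfold ell at h4
  rw [Fintype.card_fin]
  omega

/-- The dimension of the spaces `L(E - D)`. -/
def dimD (_fr : Frame h E n) : ℕ := n - genusFF QBar F

variable {D : Divisor QBar F} {Db : Divisor (ResidueField A) Fk}

theorem map_spaceK (hD : 0 ≤ Db) :
    (spaceK fr Db).map (Fintype.linearCombination (ResidueField A)
      fun i => redF h.toRedLattice (fr.u i)) = riemannRochSpace (redDiv h E - Db) := by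
  refine Submodule.map_comap_eq_self ?_
  rw [Fintype.range_linearCombination, span_reduced fr]
  exact riemannRochSpace_mono (sub_le_self _ hD)

theorem finrank_spaceK (hD : 0 ≤ Db) (hd : Divisor.degree Db = genusFF QBar F) :
    Module.finrank (ResidueField A) (spaceK fr Db) = dimD fr := by
  rw [(Submodule.equivMapOfInjective _ fr.indep.fintypeLinearCombination_injective
    (spaceK fr Db)).finrank_eq, map_spaceK fr hD]
  have h2 := rrBound_lt_bigDeg h
  have h3 := fr.big
  have h4 := ell_eq_of_rrBound_le' h (D := redDiv h E - Db) (by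
    rw [map_sub, degree_redDiv, hd]; omega)
  rw [map_sub, degree_redDiv, hd, genusFF_eq_of_goodRed h] at h4
  have h5 := natCast_card fr
  have h6 := three_le_bigDeg h
  have h7 := one_le_rrBound h
  unfold ell at h4
  unfold dimD
  omega

theorem finrank_spaceQ (hD : 0 ≤ D) (hd : Divisor.degree D = genusFF QBar F) :
    Module.finrank QBar (spaceQ fr D) = dimD fr := by
  have hli := linearIndependent_frame fr
  have hspan : Submodule.span QBar (Set.range fun i => (fr.u i : F)) = riemannRochSpace E := by
    refine Submodule.eq_of_le_of_finrank_eq (Submodule.span_le.mpr ?_) ?_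
    · rintro _ ⟨i, rfl⟩; exact fr.mem i
    · rw [finrank_span_eq_card hli, finrank_frame fr]
  rw [(Submodule.equivMapOfInjective _ hli.fintypeLinearCombination_injective
    (spaceQ fr D)).finrank_eq, spaceQ, Submodule.map_comap_eq_self (by
      rw [Fintype.range_linearCombination, hspan]
      exact riemannRochSpace_mono (sub_le_self _ hD))]
  have h2 := rrBound_lt_bigDeg h
  have h3 := fr.big
  have h4 := ell_eq_of_rrBound_le h (D := E - D) (by rw [map_sub, hd]; omega)
  rw [map_sub, hd] at h4
  have h5 := natCast_card fr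
  have h6 := three_le_bigDeg h
  have h7 := one_le_rrBound h
  unfold ell at h4
  unfold dimD
  omega

/-- Pivots of the reduced space. -/
def IsPivot (Db : Divisor (ResidueField A) Fk) (J : Fin (dimD fr) → Fin n) : Prop :=
  Function.Bijective fun c : spaceK fr Db => fun t => (c : Fin n → ResidueField A) (J t)

theorem exists_isPivot (hD : 0 ≤ Db) (hd : Divisor.degree Db = genusFF QBar F) :
    ∃ J, IsPivot fr Db J :=
  exists_pivot _ (finrank_spaceK fr hD hd)

/-- The residual coordinates of an element of `L(E - D)` lie in the reduced space. -/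
theorem residue_mem_spaceK {c : Fin n → A}
    (hc : (fun i => ((c i : A) : QBar)) ∈ spaceQ fr D) :
    (fun i => residue A (c i)) ∈ spaceK fr (redDiv h D) := by
  rw [mem_spaceQ] at hc
  rw [mem_spaceK, ← map_sub]
  refine redW_le_redDiv (E - D) ⟨∑ i, intConst h.toRedLattice (c i) * fr.u i, ?_, ?_⟩
  · simpa only [AddSubmonoidClass.coe_finsetSum, MulMemClass.coe_mul, coe_intConst,
      ← Algebra.smul_def] using hc
  · rw [map_sum]
    simp only [map_mul, redF_intConst, ← Algebra.smul_def]

/-- Existence of integral coordinates in standard position at the pivots. -/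
theorem exists_coord (hD : 0 ≤ D) (hd : Divisor.degree D = genusFF QBar F)
    {J : Fin (dimD fr) → Fin n} (hJ : IsPivot fr (redDiv h D) J) :
    ∃ C : Fin (dimD fr) → Fin n → A, (∀ j, (fun i => ((C j i : A) : QBar)) ∈ spaceQ fr D) ∧
      ∀ j t, C j (J t) = if j = t then 1 else 0 := by
  classical
  obtain ⟨c, hc, hli⟩ := exists_echelon (A := A) (dimD fr) (spaceQ fr D) (finrank_spaceQ fr hD hd)
  let P : Matrix (Fin (dimD fr)) (Fin (dimD fr)) A := Matrix.of fun j t => c j (J t)
  let f : spaceK fr (redDiv h D) →ₗ[ResidueField A] (Fin (dimD fr) → ResidueField A) :=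
    (LinearMap.funLeft _ _ J).comp (spaceK fr (redDiv h D)).subtype
  have hf : Function.Injective f := hJ.injective
  have hli' : LinearIndependent (ResidueField A) fun j =>
      (⟨_, residue_mem_spaceK fr (hc j)⟩ : spaceK fr (redDiv h D)) :=
    LinearIndependent.of_comp (spaceK fr (redDiv h D)).subtype hli
  have hP : IsUnit P.det := by
    rw [← residue_ne_zero_iff_isUnit, RingHom.map_det, RingHom.mapMatrix_apply]
    exact ((Matrix.isUnit_iff_isUnit_det _).mp (Matrix.linearIndependent_rows_iff_isUnit.mp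
      (hli'.map' f (LinearMap.ker_eq_bot.mpr hf)))).ne_zero
  refine ⟨fun j i => ∑ l, P⁻¹ j l * c l i, fun j => ?_, fun j t => ?_⟩
  · have e : (fun i => ((∑ l, P⁻¹ j l * c l i : A) : QBar)) =
        ∑ l, ((P⁻¹ j l : A) : QBar) • fun i => ((c l i : A) : QBar) := by
      funext i
      simp only [AddSubmonoidClass.coe_finsetSum, MulMemClass.coe_mul, Finset.sum_apply,
        Pi.smul_apply, smul_eq_mul]
    rw [e]
    exact sum_mem fun l _ => Submodule.smul_mem _ _ (hc l)
  · have h1 := congrArg (fun X : Matrix (Fin (dimD fr)) (Fin (dimD fr)) A => X j t)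
      (Matrix.nonsing_inv_mul P hP)
    simp only [Matrix.mul_apply, Matrix.one_apply] at h1
    exact h1

/-- An element of `L(E - D)` vanishing at the pivots is zero. -/
theorem eq_zero_of_pivot (hD : 0 ≤ D) (hd : Divisor.degree D = genusFF QBar F)
    {J : Fin (dimD fr) → Fin n} (hJ : IsPivot fr (redDiv h D) J) {c : Fin n → QBar}
    (hc : c ∈ spaceQ fr D) (h0 : ∀ t, c (J t) = 0) : c = 0 := by
  classical
  obtain ⟨C, hC, hCJ⟩ := exists_coord fr hD hd hJ
  let f : spaceQ fr D →ₗ[QBar] (Fin (dimD fr) → QBar) :=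
    (LinearMap.funLeft _ _ J).comp (spaceQ fr D).subtype
  have hsurj : Function.Surjective f := by
    intro y
    refine ⟨∑ j, y j • (⟨_, hC j⟩ : spaceQ fr D), funext fun t => ?_⟩
    simp [f, LinearMap.funLeft_apply, Finset.sum_apply, hCJ, apply_ite]
  have hinj : Function.Injective f := (LinearMap.injective_iff_surjective_of_finrank_eq_finrank
    (by rw [finrank_spaceQ fr hD hd, Module.finrank_fintype_fun_eq_card, Fintype.card_fin])).mpr
      hsurj
  exact congrArg Subtype.val (hinj (a₁ := ⟨c, hc⟩) (a₂ := 0) (funext fun t => by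
    rw [map_zero, Pi.zero_apply]; exact h0 t))

/-- The coordinates of `L(E - D)` at the pivots `J`. -/
def coord (D : Divisor QBar F) (J : Fin (dimD fr) → Fin n) (j : Fin (dimD fr)) (i : Fin n) :
    QBar :=
  open scoped Classical in
  if hD : 0 ≤ D ∧ Divisor.degree D = genusFF QBar F ∧ IsPivot fr (redDiv h D) J then
    (((exists_coord fr hD.1 hD.2.1 hD.2.2).choose j i : A) : QBar)
  else 0

theorem coord_mem_valuationSubring (D : Divisor QBar F) (J : Fin (dimD fr) → Fin n)
    (j : Fin (dimD fr)) (i : Fin n) : coord fr D J j i ∈ A := by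
  classical
  unfold coord
  split
  · exact Subtype.coe_prop _
  · exact A.zero_mem

/-- The coordinates, as elements of `A`. -/
def coordA (D : Divisor QBar F) (J : Fin (dimD fr) → Fin n) (j : Fin (dimD fr)) (i : Fin n) : A :=
  ⟨coord fr D J j i, coord_mem_valuationSubring fr D J j i⟩

variable {J : Fin (dimD fr) → Fin n} (hD : 0 ≤ D) (hd : Divisor.degree D = genusFF QBar F)
  (hJ : IsPivot fr (redDiv h D) J)

include hD hd hJ

theorem coord_spec : (∀ j, coord fr D J j ∈ spaceQ fr D) ∧
    ∀ j t, coord fr D J j (J t) = if j = t then 1 else 0 := by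
  classical
  have hs := (exists_coord fr hD hd hJ).choose_spec
  have e : ∀ j i, coord fr D J j i = ((exists_coord fr hD hd hJ).choose j i : QBar) := fun j i => by
    rw [coord, dif_pos ⟨hD, hd, hJ⟩]
  refine ⟨fun j => ?_, fun j t => ?_⟩
  · rw [show coord fr D J j = _ from funext (e j)]; exact hs.1 j
  · rw [e, hs.2]; split <;> simp

theorem eq_coord {j : Fin (dimD fr)} {c : Fin n → QBar} (hc : c ∈ spaceQ fr D)
    (h1 : ∀ t, c (J t) = if j = t then 1 else 0) : c = coord fr D J j :=
  sub_eq_zero.mp (eq_zero_of_pivot fr hD hd hJ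
    (sub_mem hc ((coord_spec fr hD hd hJ).1 j)) fun t => by
      rw [Pi.sub_apply, h1, (coord_spec fr hD hd hJ).2, sub_self])

theorem residue_coord_mem (j : Fin (dimD fr)) :
    (fun i => residue A (coordA fr D J j i)) ∈ spaceK fr (redDiv h D) :=
  residue_mem_spaceK fr (c := coordA fr D J j) ((coord_spec fr hD hd hJ).1 j)

theorem residue_coord_pivot (j t : Fin (dimD fr)) :
    residue A (coordA fr D J j (J t)) = if j = t then 1 else 0 := by
  have h1 : coordA fr D J j (J t) = if j = t then 1 else 0 := by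
    refine Subtype.ext ?_
    show coord fr D J j (J t) = _
    rw [(coord_spec fr hD hd hJ).2]
    split <;> simp
  rw [h1]
  split <;> simp

/-- The reduction of the coordinates only depends on the reduced divisor. -/
theorem residue_coord_eq {D' : Divisor QBar F} (hD' : 0 ≤ D')
    (hd' : Divisor.degree D' = genusFF QBar F) (hred : redDiv h D' = redDiv h D)
    (j : Fin (dimD fr)) (i : Fin n) :
    residue A (coordA fr D' J j i) = residue A (coordA fr D J j i) := by
  have hJ' : IsPivot fr (redDiv h D') J := by rwa [hred]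
  have h1 := residue_coord_mem fr hD' hd' hJ' j
  rw [hred] at h1
  have h2 : (⟨_, h1⟩ : spaceK fr (redDiv h D)) = ⟨_, residue_coord_mem fr hD hd hJ j⟩ :=
    hJ.injective (funext fun t => by
      show residue A (coordA fr D' J j (J t)) = residue A (coordA fr D J j (J t))
      rw [residue_coord_pivot fr hD' hd' hJ', residue_coord_pivot fr hD hd hJ])
  exact congrFun (congrArg Subtype.val h2) i

/-- The coordinates determine the divisor. -/
theorem eq_of_coord_eq {D' : Divisor QBar F} (hD' : 0 ≤ D')
    (hd' : Divisor.degree D' = genusFF QBar F) (hJ' : IsPivot fr (redDiv h D') J)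
    (heq : ∀ j, coord fr D' J j = coord fr D J j) : D' = D := by
  classical
  have key : spaceQ fr D' ≤ spaceQ fr D := by
    intro c hc
    have e : c = ∑ j, c (J j) • coord fr D' J j := sub_eq_zero.mp (eq_zero_of_pivot fr hD' hd' hJ'
      (sub_mem hc (sum_mem fun j _ => Submodule.smul_mem _ _ ((coord_spec fr hD' hd' hJ').1 j)))
      fun t => by simp [Finset.sum_apply, (coord_spec fr hD' hd' hJ').2])
    rw [e]
    exact sum_mem fun j _ => Submodule.smul_mem _ _ (by
      rw [heq]; exact (coord_spec fr hD hd hJ).1 j)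
  have hli := linearIndependent_frame fr
  have hspan : riemannRochSpace E ≤ LinearMap.range
      (Fintype.linearCombination QBar fun i => (fr.u i : F)) := by
    rw [Fintype.range_linearCombination]
    refine (Submodule.eq_of_le_of_finrank_eq (Submodule.span_le.mpr ?_) ?_).ge
    · rintro _ ⟨i, rfl⟩; exact fr.mem i
    · rw [finrank_span_eq_card hli, finrank_frame fr]
  have hle : riemannRochSpace (E - D') ≤ riemannRochSpace (E - D) := by
    intro f hf
    obtain ⟨c, hc⟩ := hspan (riemannRochSpace_mono (sub_le_self _ hD') hf)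
    rw [← hc] at hf ⊢
    exact key hf
  have h2 := rrBound_lt_bigDeg h
  have h3 := fr.big
  have h6 := three_le_bigDeg h
  have h7 := one_le_rrBound h
  have h4 := le_of_riemannRochSpace_le (fun _ => ell_eq_of_rrBound_le h)
    (show rrBound h + 1 ≤ Divisor.degree (E - D') by rw [map_sub, hd']; omega) hle
  have h5 : D ≤ D' := sub_le_sub_iff_left E |>.mp h4
  exact (eq_of_le_of_degree_le h5 (le_of_eq (hd'.trans hd.symm))).symm

omit hD hd hJ

section Family

variable {Ω : Type*} [Finite Ω] [Nonempty Ω] {R : Subalgebra A (Ω → QBar)}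
  {Dω : Ω → Divisor QBar F}

/-- A regular family has its coordinates in the algebra. -/
theorem coord_mem_of_isReg (hR : HasIntValues R) (hD : ∀ ω, 0 ≤ Dω ω)
    (hd : ∀ ω, Divisor.degree (Dω ω) = genusFF QBar F) (hred : ∀ ω, redDiv h (Dω ω) = Db)
    (hJ : IsPivot fr Db J) (hreg : IsReg h R (fun ω => E - Dω ω) (redDiv h E - Db))
    (j : Fin (dimD fr)) (i : Fin n) : (fun ω => coord fr (Dω ω) J j i) ∈ R := by
  classical
  set k := ResidueField A
  choose cb hcbJ using fun l : Fin (dimD fr) => hJ.surjective (Pi.single l 1)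
  have hxmem : ∀ l, ∑ i, (cb l : Fin n → k) i • redF h.toRedLattice (fr.u i) ∈
      riemannRochSpace (redDiv h E - Db) := fun l => (mem_spaceK fr).mp (cb l).2
  choose φ hφ hφ' using fun l => hreg _ (hxmem l)
  let ψ : Fin n ⊕ Fin (dimD fr) → Ω → F := Sum.elim (fun i _ => (fr.u i : F)) φ
  obtain ⟨d, v, P, hv, hP⟩ := exists_frame_secs (h := h.toRedLattice) (R := R) ψ (fun t => by
    rcases t with t | t
    · exact const_mem_secs _
    · exact hφ t)
  set PU : Matrix (Fin d) (Fin n) R := Matrix.of fun e i => P e (Sum.inl i) with hPU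
  set PF : Matrix (Fin d) (Fin (dimD fr)) R := Matrix.of fun e l => P e (Sum.inr l) with hPF
  have hvQ : LinearIndependent QBar fun e => (v e : F) :=
    linearIndependent_of_redF h.toRedLattice v hv
  obtain ⟨ω₀⟩ := ‹Nonempty Ω›
  have redPU : ∀ ω i, redF h.toRedLattice (fr.u i) =
      ∑ e, resAt hR ω (PU e i) • redF h.toRedLattice (v e) := by
    intro ω i
    obtain ⟨hm, hr⟩ := redF_sum_smul (h := h) hR ω (fun e => PU e i) v
    rw [← hr]
    exact congrArg _ (Subtype.ext (hP (Sum.inl i) ω))
  have uniq : ∀ {x y : Fin d → k}, ∑ e, x e • redF h.toRedLattice (v e) =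
      ∑ e, y e • redF h.toRedLattice (v e) → x = y := fun {x y} hxy =>
    hv.fintypeLinearCombination_injective (by simpa [Fintype.linearCombination_apply] using hxy)
  set Ub := PU.map (resAt hR ω₀) with hUb
  have hPUc : ∀ ω, PU.map (resAt hR ω) = Ub := fun ω => Matrix.ext fun e i =>
    congrFun (uniq (x := fun e => resAt hR ω (PU e i)) (y := fun e => resAt hR ω₀ (PU e i))
      ((redPU ω i).symm.trans (redPU ω₀ i))) e
  have hinjU : Function.Injective Ub.mulVec := by
    intro x y hxy
    refine fr.indep.fintypeLinearCombination_injective ?_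
    have key : ∀ z, Fintype.linearCombination k (fun i => redF h.toRedLattice (fr.u i)) z =
        ∑ e, (Matrix.mulVec Ub z) e • redF h.toRedLattice (v e) := fun z => by
      rw [Fintype.linearCombination_apply]
      simp only [redPU ω₀, Finset.smul_sum, smul_smul, Matrix.mulVec, dotProduct, Finset.sum_smul,
        hUb, Matrix.map_apply]
      rw [Finset.sum_comm]
      exact Finset.sum_congr rfl fun e _ => Finset.sum_congr rfl fun x _ => by rw [mul_comm]
    rw [key, key]
    exact congrArg (fun w : Fin d → k => ∑ e, w e • redF h.toRedLattice (v e)) hxy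
  obtain ⟨Lb, hLb⟩ := exists_left_inverse hinjU
  set L0 : Matrix (Fin n) (Fin d) R := constMat Lb with hL0
  have hN1 : ∀ ω, (L0 * PU).map (resAt hR ω) = 1 := fun ω => by
    rw [Matrix.map_mul, resAt_constMat, hPUc, hLb]
  have hN := (Matrix.isUnit_iff_isUnit_det _).mp (isUnit_matrix hR (L0 * PU) hN1)
  set L : Matrix (Fin n) (Fin d) R := (L0 * PU)⁻¹ * L0 with hL
  have hLPU : L * PU = 1 := by rw [hL, Matrix.mul_assoc, Matrix.nonsing_inv_mul _ hN]
  set C : Matrix (Fin n) (Fin (dimD fr)) R := L * PF with hC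
  -- the coordinates of the sections
  have hsec : ∀ ω l, ∑ i, (C i l : Ω → QBar) ω • (fr.u i : F) = φ l ω := by
    intro ω l
    have hφE : φ l ω ∈ riemannRochSpace E := by
      obtain ⟨hφm, -⟩ := hφ' l ω
      exact riemannRochSpace_mono (sub_le_self _ (hD ω)) hφm
    have hli := linearIndependent_frame fr
    obtain ⟨c, hc, -⟩ := exists_coords h.toRedLattice fr.u fr.mem fr.indep (finrank_frame fr) hφE
    have h1 : (fun e => (P e (Sum.inr l) : Ω → QBar) ω) =
        Matrix.mulVec (PU.map (evalQ R ω)) c := by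
      have h2 : ∑ e, ((P e (Sum.inr l) : Ω → QBar) ω - Matrix.mulVec (PU.map (evalQ R ω)) c e) •
          (v e : F) = 0 := by
        simp only [sub_smul, Finset.sum_sub_distrib]
        rw [sub_eq_zero, ← hP (Sum.inr l) ω, show ψ (Sum.inr l) ω = φ l ω from rfl, hc]
        simp only [Matrix.mulVec, dotProduct, Finset.sum_smul, Matrix.map_apply, evalQ_apply]
        rw [Finset.sum_comm]
        refine Finset.sum_congr rfl fun i _ => ?_
        rw [show (fr.u i : F) = ψ (Sum.inl i) ω from rfl, hP (Sum.inl i) ω, Finset.smul_sum]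
        exact Finset.sum_congr rfl fun e _ => by rw [smul_smul, mul_comm]; rfl
      exact funext fun e => sub_eq_zero.mp (Fintype.linearIndependent_iff.mp hvQ _ h2 e)
    have h3 : ∀ i, (C i l : Ω → QBar) ω = c i := by
      intro i
      have h4 : Matrix.mulVec (L.map (evalQ R ω)) (fun e => (P e (Sum.inr l) : Ω → QBar) ω) = c := by
        rw [h1, Matrix.mulVec_mulVec, ← Matrix.map_mul, hLPU,
          Matrix.map_one _ (map_zero _) (map_one _), Matrix.one_mulVec]
      rw [← congrFun h4 i]
      show evalQ R ω (C i l) = _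
      rw [hC, Matrix.mul_apply, map_sum]
      simp only [map_mul, Matrix.mulVec, dotProduct, Matrix.map_apply, evalQ_apply, hPF,
        Matrix.of_apply]
    rw [hc]
    exact Finset.sum_congr rfl fun i _ => by rw [h3]
  have hCmem : ∀ ω l, (fun i => (C i l : Ω → QBar) ω) ∈ spaceQ fr (Dω ω) := fun ω l => by
    rw [mem_spaceQ, hsec]
    exact (hφ' l ω).1
  have hCred : ∀ ω i l, resAt hR ω (C i l) = (cb l : Fin n → k) i := by
    intro ω i l
    obtain ⟨hm, hr⟩ := redF_sum_smul (h := h) hR ω (fun i => C i l) fr.u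
    obtain ⟨-, hm', hr'⟩ := hφ' l ω
    rw [show (⟨_, hm⟩ : h.S) = ⟨_, hm'⟩ from Subtype.ext (hsec ω l), hr'] at hr
    exact congrFun (fr.indep.fintypeLinearCombination_injective (by
      simpa [Fintype.linearCombination_apply] using hr.symm) :
        (fun i => resAt hR ω (C i l)) = _) i
  set P₂ : Matrix (Fin (dimD fr)) (Fin (dimD fr)) R := Matrix.of fun l t => C (J t) l with hP₂
  have hP₂1 : ∀ ω, P₂.map (resAt hR ω) = 1 := fun ω => Matrix.ext fun l t => by
    rw [Matrix.map_apply, hP₂, Matrix.of_apply, hCred,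
      show (cb l : Fin n → k) (J t) = (Pi.single l 1 : Fin (dimD fr) → k) t from congrFun (hcbJ l) t,
      Matrix.one_apply, Pi.single_apply]
    exact ite_congr (propext eq_comm) (fun _ => rfl) fun _ => rfl
  have hP₂u := (Matrix.isUnit_iff_isUnit_det _).mp (isUnit_matrix hR P₂ hP₂1)
  suffices (fun ω => coord fr (Dω ω) J j i) = ((∑ l, P₂⁻¹ j l * C i l : R) : Ω → QBar) by
    rw [this]; exact Subtype.coe_prop _
  funext ω
  show _ = evalQ R ω (∑ l, P₂⁻¹ j l * C i l)
  refine (congrFun (eq_coord fr (hD ω) (hd ω) (by rw [hred]; exact hJ) (j := j)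
    (c := fun i => evalQ R ω (∑ l, P₂⁻¹ j l * C i l)) ?_ fun t => ?_) i).symm
  · have e : (fun i => evalQ R ω (∑ l, P₂⁻¹ j l * C i l)) =
        ∑ l, evalQ R ω (P₂⁻¹ j l) • fun i => evalQ R ω (C i l) := by
      funext i
      simp only [map_sum, map_mul, Finset.sum_apply, Pi.smul_apply, smul_eq_mul]
    rw [e]
    exact sum_mem fun l _ => Submodule.smul_mem _ _ (hCmem ω l)
  · have h1 := congrArg (fun X : Matrix (Fin (dimD fr)) (Fin (dimD fr)) R => evalQ R ω (X j t))
      (Matrix.nonsing_inv_mul P₂ hP₂u)
    simp only [Matrix.mul_apply, Matrix.one_apply, apply_ite (evalQ R ω), map_one, map_zero] at h1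
    exact h1

/-- A family with coordinates in the algebra is regular. -/
theorem isReg_of_coord_mem (hR : HasIntValues R) (hD : ∀ ω, 0 ≤ Dω ω)
    (hd : ∀ ω, Divisor.degree (Dω ω) = genusFF QBar F) (hred : ∀ ω, redDiv h (Dω ω) = Db)
    (hJ : IsPivot fr Db J) (hmem : ∀ j i, (fun ω => coord fr (Dω ω) J j i) ∈ R) :
    IsReg h R (fun ω => E - Dω ω) (redDiv h E - Db) := by
  classical
  obtain ⟨ω₀⟩ := ‹Nonempty Ω›
  have hDb : 0 ≤ Db := hred ω₀ ▸ redDiv_nonneg h (hD ω₀)
  intro x hx
  obtain ⟨c, hc, rfl⟩ : x ∈ (spaceK fr Db).map (Fintype.linearCombination (ResidueField A)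
      fun i => redF h.toRedLattice (fr.u i)) := by rwa [map_spaceK fr hDb]
  let r : Fin n → R := fun i =>
    ∑ j, algebraMap A R (liftRes A (c (J j))) * ⟨_, hmem j i⟩
  refine ⟨_, sum_mem_secs (h := h.toRedLattice) Finset.univ r fr.u, fun ω => ?_⟩
  have hJω : IsPivot fr (redDiv h (Dω ω)) J := by rw [hred]; exact hJ
  have hr : ∀ i, (r i : Ω → QBar) ω =
      ∑ j, ((liftRes A (c (J j)) : A) : QBar) * coord fr (Dω ω) J j i := by
    intro i
    show evalQ R ω (r i) = _
    simp only [r, map_sum, map_mul, evalQ_apply]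
    rfl
  refine ⟨?_, ?_⟩
  · have hm : (fun i => (r i : Ω → QBar) ω) ∈ spaceQ fr (Dω ω) := by
      rw [show (fun i => (r i : Ω → QBar) ω) =
        ∑ j, ((liftRes A (c (J j)) : A) : QBar) • coord fr (Dω ω) J j from funext fun i => by
          rw [hr, Finset.sum_apply]; rfl]
      exact sum_mem fun j _ => Submodule.smul_mem _ _ ((coord_spec fr (hD ω) (hd ω) hJω).1 j)
    exact (mem_spaceQ fr).mp hm
  · obtain ⟨hm, hred'⟩ := redF_sum_smul (h := h) hR ω r fr.u
    refine ⟨hm, hred'.trans ?_⟩
    rw [Fintype.linearCombination_apply]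
    have key : (fun i => resAt hR ω (r i)) = c := by
      have h1 : (fun i => resAt hR ω (r i)) =
          ∑ j, c (J j) • fun i => residue A (coordA fr (Dω ω) J j i) := by
        funext i
        simp only [r, map_sum, map_mul, resAt_algebraMap, residue_liftRes, Finset.sum_apply,
          Pi.smul_apply, smul_eq_mul]
        rfl
      have hmemc : (fun i => resAt hR ω (r i)) ∈ spaceK fr Db := by
        rw [h1]
        refine sum_mem fun j _ => Submodule.smul_mem _ _ ?_
        rw [← hred ω]
        exact residue_coord_mem fr (hD ω) (hd ω) hJω j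
      refine congrArg Subtype.val (hJ.injective (a₁ := ⟨_, hmemc⟩) (a₂ := ⟨c, hc⟩) (funext fun t => ?_))
      show (fun i => resAt hR ω (r i)) (J t) = c (J t)
      rw [h1]
      simp [Finset.sum_apply, residue_coord_pivot fr (hD ω) (hd ω) hJω]
    exact Finset.sum_congr rfl fun i _ => by rw [show resAt hR ω (r i) = c i from congrFun key i]

/-- The coordinates of the effective divisor in the class `X + Y - T`. -/
theorem coord_mem_op (hR : HasIntValues R) {X Y T Z : Ω → Divisor QBar F}
    {Xb Yb Tb Zb : Divisor (ResidueField A) Fk} {JX JY JT : Fin (dimD fr) → Fin n}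
    (hX0 : ∀ ω, 0 ≤ X ω) (hY0 : ∀ ω, 0 ≤ Y ω) (hT0 : ∀ ω, 0 ≤ T ω) (hZ0 : ∀ ω, 0 ≤ Z ω)
    (hXd : ∀ ω, Divisor.degree (X ω) = genusFF QBar F)
    (hYd : ∀ ω, Divisor.degree (Y ω) = genusFF QBar F)
    (hTd : ∀ ω, Divisor.degree (T ω) = genusFF QBar F)
    (hXr : ∀ ω, redDiv h (X ω) = Xb) (hYr : ∀ ω, redDiv h (Y ω) = Yb)
    (hTr : ∀ ω, redDiv h (T ω) = Tb) (hZr : ∀ ω, redDiv h (Z ω) = Zb)
    (hJX : IsPivot fr Xb JX) (hJY : IsPivot fr Yb JY) (hJT : IsPivot fr Tb JT)
    (hJ : IsPivot fr Zb J)
    (hX : ∀ j i, (fun ω => coord fr (X ω) JX j i) ∈ R)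
    (hY : ∀ j i, (fun ω => coord fr (Y ω) JY j i) ∈ R)
    (hT : ∀ j i, (fun ω => coord fr (T ω) JT j i) ∈ R)
    (hZl : ell (ResidueField A) Zb = 1)
    (hZe : ∀ ω, ∃ f : F, f ≠ 0 ∧ Z ω = X ω + Y ω - T ω + div QBar f)
    (hZbe : ∃ f : Fk, f ≠ 0 ∧ Zb = Xb + Yb - Tb + div (ResidueField A) f)
    (j : Fin (dimD fr)) (i : Fin n) : (fun ω => coord fr (Z ω) J j i) ∈ R := by
  obtain ⟨ω₀⟩ := ‹Nonempty Ω›
  have hZb0 : 0 ≤ Zb := hZr ω₀ ▸ redDiv_nonneg h (hZ0 ω₀)
  obtain ⟨D, hD, hreg⟩ := IsReg.exists_op hR fr.nonneg fr.big hX0 hY0 hT0 hXd hYd hTd hXr hYr hTr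
    (isReg_of_coord_mem fr hR hX0 hXd hXr hJX hX) (isReg_of_coord_mem fr hR hY0 hYd hYr hJY hY)
    (isReg_of_coord_mem fr hR hT0 hTd hTr hJT hT) hZb0 hZl hZbe
  have hDd : ∀ ω, Divisor.degree (D ω) = genusFF QBar F := fun ω => by
    obtain ⟨-, -, f, -, hf⟩ := hD ω
    rw [hf]
    simp [map_add, map_sub, hXd, hYd, hTd, degree_div]
  have hDZ : D = Z := funext fun ω => by
    obtain ⟨hD0, hDr, f, hf, hDe⟩ := hD ω
    obtain ⟨g, hg, hZe⟩ := hZe ω
    refine (eq_of_ell_eq_one (hZ0 ω) hD0 ?_ (f := g⁻¹ * f) ?_).symm.symm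
    · have h1 := ell_le_ell_redDiv h (Z ω)
      rw [hZr, hZl] at h1
      have h2 := one_le_ell_of_degree_eq_genus (D := Z ω) (by
        rw [hZe]; simp [map_add, map_sub, hXd, hYd, hTd, degree_div])
      omega
    · rw [hZe, hDe, FF.div_mul (inv_ne_zero hg) hf, FF.div_inv]
      abel
  rw [← hDZ]
  exact coord_mem_of_isReg fr hR (fun ω => (hD ω).1) hDd (fun ω => (hD ω).2.1) hJ hreg j i

end Family

end Fermat.Agent.FiniteFlat.Grass

end
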