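import Fermat.Agent.FiniteFlat.GrassReps
import Fermat.Agent.FiniteFlat.OfLattice
import Fermat.Agent.Mazur.Eisenstein.Inputs

/-!
# The order property of `J₀(N)` at primes of good reduction

The lattice is generated by the indicator functions of the fibres of the reduction and the
coordinates of the effective representatives on each fibre. The group law maps it into the tensor
square by the calculus of regular families; elements of the decomposition group change the base
divisor, which the same calculus absorbs.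
-/

set_option autoImplicit false
set_option maxHeartbeats 1000000
set_option synthInstance.maxHeartbeats 400000
set_option linter.unusedSectionVars false

noncomputable section

open IsLocalRing ModularCurve AlgebraicCurve
open Fermat.Agent.Arith Fermat.Agent.FF Fermat.Agent.RedTorsion Fermat.Agent.EichlerShimura
open scoped Pointwise

namespace Fermat.Agent.FiniteFlat.Grass

section General

variable {A : ValuationSubring QBar}

/-- Pull back of functions along a map. -/
def pull (A : ValuationSubring QBar) {X Y : Type*} (π : X → Y) : (Y → QBar) →ₐ[A] (X → QBar) where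
  toFun f := f ∘ π
  map_one' := rfl
  map_mul' _ _ := rfl
  map_zero' := rfl
  map_add' _ _ := rfl
  commutes' _ := rfl

theorem pull_apply {X Y : Type*} (π : X → Y) (f : Y → QBar) (x : X) : pull A π f x = f (π x) :=
  rfl

open scoped Classical in
/-- The indicator of the fibre of a map through a point. -/
def fibreInd {X κ : Type*} (key : X → κ) (x₀ : X) : X → QBar :=
  fun x => if key x = key x₀ then 1 else 0

/-- A function agreeing with members of an algebra on each fibre belongs to it. -/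
theorem mem_of_local {X κ : Type*} [Finite X] (key : X → κ) (T : Subalgebra A (X → QBar))
    (hind : ∀ x₀, fibreInd key x₀ ∈ T) {F : X → QBar}
    (hloc : ∀ x₀, ∃ G ∈ T, ∀ x, key x = key x₀ → F x = G x) : F ∈ T := by
  classical
  haveI := Fintype.ofFinite X
  choose G hG hFG using hloc
  let s : Finset κ := Finset.univ.image key
  have hs : ∀ c ∈ s, ∃ x₀, key x₀ = c := fun c hc => by
    obtain ⟨x, -, hx⟩ := Finset.mem_image.mp hc
    exact ⟨x, hx⟩
  have e : F = ∑ c ∈ s.attach, fibreInd key (hs c.1 c.2).choose * G (hs c.1 c.2).choose := by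
    funext x
    rw [Finset.sum_apply, Finset.sum_eq_single
      (⟨key x, Finset.mem_image_of_mem key (Finset.mem_univ x)⟩ : {c // c ∈ s})]
    · have hx := (hs _ (Finset.mem_image_of_mem key (Finset.mem_univ x))).choose_spec
      rw [Pi.mul_apply, fibreInd, if_pos hx.symm, one_mul]
      exact hFG _ x hx.symm
    · intro c _ hc
      rw [Pi.mul_apply, fibreInd, if_neg, zero_mul]
      exact fun h => hc (Subtype.ext (h.trans (hs c.1 c.2).choose_spec).symm)
    · exact fun h => absurd (Finset.mem_attach _ _) h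
  rw [e]
  exact Subalgebra.sum_mem T fun c _ => T.mul_mem (hind _) (hG _)

end General

variable {N : ℕ} [NeZero N] {A : ValuationSubring QBar} {l : ℕ}

local notation "Fb" => modularFunctionFieldBar N
local notation "Fk" => modularFunctionFieldFullC (ResidueField A) N

variable [IsFunctionField QBar (modularFunctionFieldBar N)]
  [IsFunctionField (ResidueField A) (modularFunctionFieldFullC (ResidueField A) N)]
  {hNA : (N : ResidueField A) ≠ 0}

variable (A) in
/-- The reduced class of a torsion class. -/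
def redCls {n₀ : ℤ} (x : Submodule.torsionBy ℤ (JZero N) n₀) : JZeroC (ResidueField A) N :=
  reductionModL A N (x : JZero N)

theorem redCls_add {n₀ : ℤ} (x y : Submodule.torsionBy ℤ (JZero N) n₀) :
    redCls A (x + y) = redCls A x + redCls A y :=
  map_add (reductionModL A N) _ _

theorem redCls_neg {n₀ : ℤ} (x : Submodule.torsionBy ℤ (JZero N) n₀) :
    redCls A (-x) = -redCls A x :=
  map_neg (reductionModL A N) _

theorem redCls_sub {n₀ : ℤ} (x y : Submodule.torsionBy ℤ (JZero N) n₀) :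
    redCls A (x - y) = redCls A x - redCls A y :=
  map_sub (reductionModL A N) _ _

variable (hA : A.LiesOverPrime l) (hl : l.Prime) {n₀ : ℤ} (hn : n₀ ≠ 0)
  {n : ℕ} (fr : GalFrame (A := A) hNA n) {B : Divisor QBar (modularFunctionFieldBar N)}
  (hB : IsBase hNA n₀ B)

/-- The coordinate functions of the representatives on the fibre through `x₀`. -/
def coordFun (B : Divisor QBar (modularFunctionFieldBar N))
    (x₀ : Submodule.torsionBy ℤ (JZero N) n₀) (J : Fin (dimD fr.toFrame) → Fin n)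
    (j : Fin (dimD fr.toFrame)) (i : Fin n) : Submodule.torsionBy ℤ (JZero N) n₀ → QBar :=
  fun y => fibreInd (redCls A) x₀ y * coord fr.toFrame (rep B (y : JZero N)) J j i

/-- The generators of the lattice. -/
def gens (B : Divisor QBar (modularFunctionFieldBar N)) (n₀ : ℤ) :
    Set (Submodule.torsionBy ℤ (JZero N) n₀ → QBar) :=
  {f | ∃ x₀, f = fibreInd (redCls A) x₀ ∨ ∃ J j i,
    IsPivot fr.toFrame (redDiv (goodRed hNA) (rep B (x₀ : JZero N))) J ∧
      f = coordFun fr B x₀ J j i}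

/-- The lattice. -/
def lat (B : Divisor QBar (modularFunctionFieldBar N)) (n₀ : ℤ) :
    Subalgebra A (Submodule.torsionBy ℤ (JZero N) n₀ → QBar) :=
  Algebra.adjoin A (gens fr B n₀)

theorem fibreInd_mem_lat (x₀ : Submodule.torsionBy ℤ (JZero N) n₀) :
    fibreInd (redCls A) x₀ ∈ lat fr B n₀ :=
  Algebra.subset_adjoin ⟨x₀, Or.inl rfl⟩

theorem coordFun_mem_lat (x₀ : Submodule.torsionBy ℤ (JZero N) n₀)
    {J : Fin (dimD fr.toFrame) → Fin n}
    (hJ : IsPivot fr.toFrame (redDiv (goodRed hNA) (rep B (x₀ : JZero N))) J)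
    (j : Fin (dimD fr.toFrame)) (i : Fin n) : coordFun fr B x₀ J j i ∈ lat fr B n₀ :=
  Algebra.subset_adjoin ⟨x₀, Or.inr ⟨J, j, i, hJ, rfl⟩⟩

theorem fibreInd_mem_valuationSubring {X κ : Type*} (key : X → κ) (x₀ x : X) :
    fibreInd key x₀ x ∈ A := by
  unfold fibreInd
  split
  · exact A.one_mem
  · exact A.zero_mem

theorem lat_mem_valuationSubring {f : Submodule.torsionBy ℤ (JZero N) n₀ → QBar}
    (hf : f ∈ lat fr B n₀) (y : Submodule.torsionBy ℤ (JZero N) n₀) : f y ∈ A := by
  induction hf using Algebra.adjoin_induction with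
  | mem g hg =>
    obtain ⟨x₀, rfl | ⟨J, j, i, -, rfl⟩⟩ := hg
    · exact fibreInd_mem_valuationSubring _ _ _
    · exact mul_mem (fibreInd_mem_valuationSubring _ _ _) (coord_mem_valuationSubring _ _ _ _ _)
  | algebraMap a => exact a.2
  | add a b _ _ ha hb => exact add_mem ha hb
  | mul a b _ _ ha hb => exact mul_mem ha hb

section Op

variable {Ω : Type*} [Finite Ω] [Nonempty Ω] {R : Subalgebra A (Ω → QBar)}

include hA hl hn in
/-- The group law on coordinates. -/
theorem coord_rep_mem (hR : HasIntValues R)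
    {B₁ B₂ B₃ B₄ : Divisor QBar (modularFunctionFieldBar N)}
    (h₁ : IsBase hNA n₀ B₁) (h₂ : IsBase hNA n₀ B₂) (h₃ : IsBase hNA n₀ B₃)
    (h₄ : IsBase hNA n₀ B₄) (hB4 : B₄ = B₁ + B₂ - B₃)
    {x y t z : Ω → Submodule.torsionBy ℤ (JZero N) n₀} (hz : ∀ ω, z ω = x ω + y ω - t ω) (ω₀ : Ω)
    (hx : ∀ ω, redCls A (x ω) = redCls A (x ω₀)) (hy : ∀ ω, redCls A (y ω) = redCls A (y ω₀))
    (ht : ∀ ω, redCls A (t ω) = redCls A (t ω₀))
    (hX : ∀ J, IsPivot fr.toFrame (redDiv (goodRed hNA) (rep B₁ (x ω₀ : JZero N))) J →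
      ∀ j i, (fun ω => coord fr.toFrame (rep B₁ (x ω : JZero N)) J j i) ∈ R)
    (hY : ∀ J, IsPivot fr.toFrame (redDiv (goodRed hNA) (rep B₂ (y ω₀ : JZero N))) J →
      ∀ j i, (fun ω => coord fr.toFrame (rep B₂ (y ω : JZero N)) J j i) ∈ R)
    (hT : ∀ J, IsPivot fr.toFrame (redDiv (goodRed hNA) (rep B₃ (t ω₀ : JZero N))) J →
      ∀ j i, (fun ω => coord fr.toFrame (rep B₃ (t ω : JZero N)) J j i) ∈ R)
    {J : Fin (dimD fr.toFrame) → Fin n}
    (hJ : IsPivot fr.toFrame (redDiv (goodRed hNA) (rep B₄ (z ω₀ : JZero N))) J)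
    (j : Fin (dimD fr.toFrame)) (i : Fin n) :
    (fun ω => coord fr.toFrame (rep B₄ (z ω : JZero N)) J j i) ∈ R := by
  set h := goodRed (A := A) hNA
  have hz' : ∀ ω, redCls A (z ω) = redCls A (z ω₀) := fun ω => by
    rw [hz, hz, redCls_sub, redCls_sub, redCls_add, redCls_add, hx, hy, ht]
  have hval : ∀ ω, (z ω : JZero N) = x ω + y ω - t ω := fun ω => by rw [hz]; rfl
  obtain ⟨JX, hJX⟩ := exists_isPivot fr.toFrame (redDiv_nonneg h (h₁.nonneg_rep (x ω₀ : JZero N)))
    ((degree_redDiv h _).trans (h₁.degree_rep _))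
  obtain ⟨JY, hJY⟩ := exists_isPivot fr.toFrame (redDiv_nonneg h (h₂.nonneg_rep (y ω₀ : JZero N)))
    ((degree_redDiv h _).trans (h₂.degree_rep _))
  obtain ⟨JT, hJT⟩ := exists_isPivot fr.toFrame (redDiv_nonneg h (h₃.nonneg_rep (t ω₀ : JZero N)))
    ((degree_redDiv h _).trans (h₃.degree_rep _))
  refine coord_mem_op fr.toFrame hR (fun ω => h₁.nonneg_rep _) (fun ω => h₂.nonneg_rep _)
    (fun ω => h₃.nonneg_rep _) (fun ω => h₄.nonneg_rep _) (fun ω => h₁.degree_rep _)
    (fun ω => h₂.degree_rep _) (fun ω => h₃.degree_rep _)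
    (fun ω => h₁.redDiv_rep_eq hA hl hn (x ω₀) (x ω) (hx ω).symm)
    (fun ω => h₂.redDiv_rep_eq hA hl hn (y ω₀) (y ω) (hy ω).symm)
    (fun ω => h₃.redDiv_rep_eq hA hl hn (t ω₀) (t ω) (ht ω).symm)
    (fun ω => h₄.redDiv_rep_eq hA hl hn (z ω₀) (z ω) (hz' ω).symm)
    hJX hJY hJT hJ (hX JX hJX) (hY JY hJY) (hT JT hJT)
    (h₄.generic _ _ (isRep_rep h₄ _))
    (fun ω => (isRep_rep h₁ _).combine (isRep_rep h₂ _) (isRep_rep h₃ _) (isRep_rep h₄ _)
      (hval ω) hB4) ?_ j i
  obtain ⟨f, hf, he⟩ := (isRep_rep h₁ (x ω₀ : JZero N)).combine (isRep_rep h₂ _) (isRep_rep h₃ _)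
    (isRep_rep h₄ _) (hval ω₀) hB4
  obtain ⟨c, f₁, hc, hf₁, hfe⟩ := exists_primitive h.toRedLattice hf
  refine ⟨redF h.toRedLattice f₁, hf₁, ?_⟩
  rw [he, map_add, map_sub, map_add, hfe, div_smul hc
    (fun e => hf₁ (by rw [show f₁ = 0 from Subtype.ext e, map_zero])), redDiv_div h f₁ hf₁]

theorem coord_const_mem (D : Divisor QBar (modularFunctionFieldBar N))
    (J : Fin (dimD fr.toFrame) → Fin n) (j : Fin (dimD fr.toFrame)) (i : Fin n) :
    (fun _ : Ω => coord fr.toFrame D J j i) ∈ R :=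
  R.algebraMap_mem (coordA fr.toFrame D J j i)

end Op

include hA hl hn hB in
/-- Coordinates of the representatives along a map into one fibre lie in the pulled back lattice. -/
theorem coord_pull_mem {Ω : Type*} (x : Ω → Submodule.torsionBy ℤ (JZero N) n₀) (ω₀ : Ω)
    (hx : ∀ ω, redCls A (x ω) = redCls A (x ω₀)) {J : Fin (dimD fr.toFrame) → Fin n}
    (hJ : IsPivot fr.toFrame (redDiv (goodRed hNA) (rep B (x ω₀ : JZero N))) J)
    (j : Fin (dimD fr.toFrame)) (i : Fin n) :
    (fun ω => coord fr.toFrame (rep B (x ω : JZero N)) J j i) ∈ (lat fr B n₀).map (pull A x) := by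
  refine ⟨_, coordFun_mem_lat fr (x ω₀) hJ j i, funext fun ω => ?_⟩
  show fibreInd (redCls A) (x ω₀) (x ω) * _ = _
  rw [fibreInd, if_pos (hx ω), one_mul]

theorem hasIntValues_map {X Y : Type*} {T : Subalgebra A (Y → QBar)} (hT : ∀ f ∈ T, ∀ y, f y ∈ A)
    (π : X → Y) : HasIntValues (T.map (pull A π)) := by
  rintro ⟨_, f, hf, rfl⟩ x
  exact hT f hf (π x)

/-! ### The tensor square -/

/-- Products of functions of the two variables. -/
def tensorSet (B : Divisor QBar (modularFunctionFieldBar N)) (n₀ : ℤ) :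
    Submonoid (Submodule.torsionBy ℤ (JZero N) n₀ × Submodule.torsionBy ℤ (JZero N) n₀ → QBar) where
  carrier := {F | ∃ a ∈ lat fr B n₀, ∃ b ∈ lat fr B n₀, F = fun p => a p.1 * b p.2}
  one_mem' := ⟨1, one_mem _, 1, one_mem _, funext fun p => by simp⟩
  mul_mem' := by
    rintro _ _ ⟨a, ha, b, hb, rfl⟩ ⟨a', ha', b', hb', rfl⟩
    exact ⟨a * a', mul_mem ha ha', b * b', mul_mem hb hb', funext fun p => by
      simp only [Pi.mul_apply]; ring⟩

/-- The image of the tensor square of the lattice. -/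
def latSq (B : Divisor QBar (modularFunctionFieldBar N)) (n₀ : ℤ) :
    Subalgebra A (Submodule.torsionBy ℤ (JZero N) n₀ × Submodule.torsionBy ℤ (JZero N) n₀ → QBar) :=
  Algebra.adjoin A
    (tensorSet fr B n₀ : Set (Submodule.torsionBy ℤ (JZero N) n₀ ×
      Submodule.torsionBy ℤ (JZero N) n₀ → QBar))

theorem map_fst_le : (lat fr B n₀).map (pull A Prod.fst) ≤ latSq fr B n₀ := by
  rintro _ ⟨f, hf, rfl⟩
  exact Algebra.subset_adjoin ⟨f, hf, 1, one_mem _, funext fun p => (mul_one _).symm⟩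

theorem map_snd_le : (lat fr B n₀).map (pull A Prod.snd) ≤ latSq fr B n₀ := by
  rintro _ ⟨f, hf, rfl⟩
  exact Algebra.subset_adjoin ⟨1, one_mem _, f, hf, funext fun p => (one_mul _).symm⟩

theorem exists_sum_of_mem_latSq
    {F : Submodule.torsionBy ℤ (JZero N) n₀ × Submodule.torsionBy ℤ (JZero N) n₀ → QBar}
    (hF : F ∈ latSq fr B n₀) :
    ∃ (k : ℕ) (a b : Fin k → (Submodule.torsionBy ℤ (JZero N) n₀ → QBar)),
      (∀ i, a i ∈ lat fr B n₀) ∧ (∀ i, b i ∈ lat fr B n₀) ∧
        ∀ x y, F (x, y) = ∑ i, a i x * b i y := by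
  have h1 : F ∈ Subalgebra.toSubmodule (latSq fr B n₀) := hF
  rw [latSq, Algebra.adjoin_eq_span, Submonoid.closure_eq] at h1
  obtain ⟨k, c, g, rfl⟩ := Submodule.mem_span_set'.mp h1
  choose a ha b hb hg using fun i => (g i).2
  refine ⟨k, fun i => c i • a i, b, fun i => Subalgebra.smul_mem _ (ha i) _, hb, fun x y => ?_⟩
  rw [Finset.sum_apply]
  refine Finset.sum_congr rfl fun i _ => ?_
  rw [hg i]
  exact (mul_assoc _ _ _).symm

theorem latSq_mem_valuationSubring
    {F : Submodule.torsionBy ℤ (JZero N) n₀ × Submodule.torsionBy ℤ (JZero N) n₀ → QBar}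
    (hF : F ∈ latSq fr B n₀)
    (p : Submodule.torsionBy ℤ (JZero N) n₀ × Submodule.torsionBy ℤ (JZero N) n₀) : F p ∈ A := by
  obtain ⟨k, a, b, ha, hb, h⟩ := exists_sum_of_mem_latSq fr hF
  rw [h p.1 p.2]
  exact sum_mem fun i _ =>
    mul_mem (lat_mem_valuationSubring fr (ha i) _) (lat_mem_valuationSubring fr (hb i) _)

variable [Finite ↥(Submodule.torsionBy ℤ (JZero N) n₀)]

include hA hl hn hB in
theorem add_mem_latSq {f : Submodule.torsionBy ℤ (JZero N) n₀ → QBar} (hf : f ∈ lat fr B n₀) :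
    pull A (fun p : Submodule.torsionBy ℤ (JZero N) n₀ × Submodule.torsionBy ℤ (JZero N) n₀ =>
      p.1 + p.2) f ∈ latSq fr B n₀ := by
  classical
  suffices hle : lat fr B n₀ ≤ (latSq fr B n₀).comap (pull A
      (fun p : Submodule.torsionBy ℤ (JZero N) n₀ × Submodule.torsionBy ℤ (JZero N) n₀ =>
        p.1 + p.2)) from hle hf
  refine Algebra.adjoin_le fun g hg => ?_
  rw [SetLike.mem_coe, Subalgebra.mem_comap]
  refine mem_of_local (fun p : Submodule.torsionBy ℤ (JZero N) n₀ ×
    Submodule.torsionBy ℤ (JZero N) n₀ => (redCls A p.1, redCls A p.2)) _ (fun p₀ => ?_) (fun p₀ => ?_)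
  · refine Algebra.subset_adjoin ⟨_, fibreInd_mem_lat fr p₀.1, _, fibreInd_mem_lat fr p₀.2,
      funext fun p => ?_⟩
    simp only [fibreInd, Prod.mk.injEq]
    split_ifs <;> simp_all
  obtain ⟨x₀, rfl | ⟨J, j, i, hJ, rfl⟩⟩ := hg
  · refine ⟨algebraMap A _ (if redCls A (p₀.1 + p₀.2) = redCls A x₀ then 1 else 0),
      Subalgebra.algebraMap_mem _ _, fun p hp => ?_⟩
    obtain ⟨h1, h2⟩ := Prod.mk.injEq .. ▸ hp
    simp only [pull_apply, fibreInd, redCls_add, h1, h2, Pi.algebraMap_apply]
    split <;> simp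
  · by_cases hc : redCls A (p₀.1 + p₀.2) = redCls A x₀
    swap
    · refine ⟨0, zero_mem _, fun p hp => ?_⟩
      obtain ⟨h1, h2⟩ := Prod.mk.injEq .. ▸ hp
      rw [redCls_add] at hc
      simp [pull_apply, coordFun, fibreInd, redCls_add, h1, h2, hc]
    let Ω := {p : Submodule.torsionBy ℤ (JZero N) n₀ × Submodule.torsionBy ℤ (JZero N) n₀ //
      (redCls A p.1, redCls A p.2) = (redCls A p₀.1, redCls A p₀.2)}
    haveI : Nonempty Ω := ⟨⟨p₀, rfl⟩⟩
    have hmem : (fun ω : Ω => coord fr.toFrame (rep B ((ω.1.1 + ω.1.2 : Submodule.torsionBy ℤ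
        (JZero N) n₀) : JZero N)) J j i) ∈
        (latSq fr B n₀).map (pull A (fun ω : Ω => ω.1)) := by
      haveI : Finite Ω := Subtype.finite
      have hR : HasIntValues ((latSq fr B n₀).map (pull A (fun ω : Ω => ω.1))) :=
        hasIntValues_map (fun F hF p => latSq_mem_valuationSubring fr hF p) _
      have hzz : ∀ ω : Ω, (ω.1.1 + ω.1.2) = ω.1.1 + ω.1.2 - 0 := fun ω => (sub_zero _).symm
      refine coord_rep_mem (Ω := Ω) hA hl hn fr hR hB hB hB hB (add_sub_cancel_right B B).symm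
        (x := fun ω : Ω => ω.1.1) (y := fun ω : Ω => ω.1.2) (t := fun _ : Ω => 0)
        (z := fun ω : Ω => ω.1.1 + ω.1.2) hzz (⟨p₀, rfl⟩ : Ω) (fun ω => congrArg Prod.fst ω.2)
        (fun ω => congrArg Prod.snd ω.2) (fun _ => rfl) (fun J' hJ' j i => ?_)
        (fun J' hJ' j i => ?_) (fun J' _ j i => coord_const_mem fr _ J' j i) ?_ j i
      · obtain ⟨a, ha, hae⟩ := coord_pull_mem hA hl hn fr hB (fun ω : Ω => ω.1.1) ⟨p₀, rfl⟩
          (fun ω => congrArg Prod.fst ω.2) hJ' j i
        exact ⟨_, map_fst_le fr ⟨a, ha, rfl⟩, hae⟩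
      · obtain ⟨a, ha, hae⟩ := coord_pull_mem hA hl hn fr hB (fun ω : Ω => ω.1.2) ⟨p₀, rfl⟩
          (fun ω => congrArg Prod.snd ω.2) hJ' j i
        exact ⟨_, map_snd_le fr ⟨a, ha, rfl⟩, hae⟩
      · rwa [hB.redDiv_rep_eq hA hl hn x₀ (p₀.1 + p₀.2) hc.symm]
    obtain ⟨G, hG, hGe⟩ := hmem
    refine ⟨G, hG, fun p hp => ?_⟩
    refine Eq.trans ?_ (congrFun hGe ⟨p, hp⟩).symm
    show fibreInd (redCls A) x₀ (p.1 + p.2) * _ = _
    rw [fibreInd, if_pos, one_mul]
    obtain ⟨h1, h2⟩ := Prod.mk.injEq .. ▸ hp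
    rw [redCls_add, h1, h2, ← redCls_add, hc]

include hA hl hn hB in
theorem neg_mem_lat {f : Submodule.torsionBy ℤ (JZero N) n₀ → QBar} (hf : f ∈ lat fr B n₀) :
    pull A (fun x : Submodule.torsionBy ℤ (JZero N) n₀ => -x) f ∈ lat fr B n₀ := by
  classical
  suffices hle : lat fr B n₀ ≤ (lat fr B n₀).comap
      (pull A (fun x : Submodule.torsionBy ℤ (JZero N) n₀ => -x)) from hle hf
  refine Algebra.adjoin_le fun g hg => ?_
  rw [SetLike.mem_coe, Subalgebra.mem_comap]
  refine mem_of_local (redCls A) _ (fibreInd_mem_lat fr) (fun y₀ => ?_)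
  obtain ⟨x₀, rfl | ⟨J, j, i, hJ, rfl⟩⟩ := hg
  · refine ⟨algebraMap A _ (if redCls A (-y₀) = redCls A x₀ then 1 else 0),
      Subalgebra.algebraMap_mem _ _, fun y hy => ?_⟩
    simp only [pull_apply, fibreInd, redCls_neg, hy, Pi.algebraMap_apply]
    split <;> simp
  · by_cases hc : redCls A (-y₀) = redCls A x₀
    swap
    · refine ⟨0, zero_mem _, fun y hy => ?_⟩
      rw [redCls_neg] at hc
      simp [pull_apply, coordFun, fibreInd, redCls_neg, hy, hc]
    let Ω := {y : Submodule.torsionBy ℤ (JZero N) n₀ // redCls A y = redCls A y₀}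
    haveI : Nonempty Ω := ⟨⟨y₀, rfl⟩⟩
    have hmem : (fun ω : Ω => coord fr.toFrame
        (rep B ((-ω.1 : Submodule.torsionBy ℤ (JZero N) n₀) : JZero N)) J j i) ∈
        (lat fr B n₀).map (pull A (fun ω : Ω => ω.1)) := by
      haveI : Finite Ω := Subtype.finite
      have hR : HasIntValues ((lat fr B n₀).map (pull A (fun ω : Ω => ω.1))) :=
        hasIntValues_map (fun F hF y => lat_mem_valuationSubring fr hF y) _
      have hzz : ∀ ω : Ω, -ω.1 = 0 + 0 - ω.1 := fun ω => by rw [add_zero, zero_sub]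
      have hpull : ∀ J', IsPivot fr.toFrame (redDiv (goodRed hNA) (rep B (y₀ : JZero N))) J' →
          ∀ j i, (fun ω : Ω => coord fr.toFrame (rep B (ω.1 : JZero N)) J' j i) ∈
            (lat fr B n₀).map (pull A (fun ω : Ω => ω.1)) := fun J' hJ' j i =>
        coord_pull_mem hA hl hn fr hB (fun ω : Ω => ω.1) (⟨y₀, rfl⟩ : Ω) (fun ω => ω.2) hJ' j i
      refine coord_rep_mem (Ω := Ω) hA hl hn fr hR hB hB hB hB (add_sub_cancel_right B B).symm
        (x := fun _ : Ω => 0) (y := fun _ : Ω => 0) (t := fun ω : Ω => ω.1)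
        (z := fun ω : Ω => -ω.1) hzz (⟨y₀, rfl⟩ : Ω) (fun _ => rfl) (fun _ => rfl) (fun ω => ω.2)
        (fun J' _ j i => coord_const_mem fr _ J' j i) (fun J' _ j i => coord_const_mem fr _ J' j i)
        hpull ?_ j i
      rwa [hB.redDiv_rep_eq hA hl hn x₀ (-y₀) hc.symm]
    obtain ⟨G, hG, hGe⟩ := hmem
    refine ⟨G, hG, fun y hy => ?_⟩
    refine Eq.trans ?_ (congrFun hGe ⟨y, hy⟩).symm
    show fibreInd (redCls A) x₀ (-y) * _ = _
    rw [fibreInd, if_pos, one_mul]
    rw [redCls_neg, hy, ← redCls_neg, hc]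

include hNA in
theorem redCls_smul_eq {σ : GQ} (hσ : σ • A = A) {x y : Submodule.torsionBy ℤ (JZero N) n₀}
    (hxy : redCls A x = redCls A y) : redCls A (σ • x) = redCls A (σ • y) := by
  haveI : IsAlgClosed (ResidueField A) := residueField_isAlgClosed A
  unfold redCls at *
  rw [coe_smul_jTorsion, coe_smul_jTorsion,
    reductionModL_smul hNA hσ (resEquiv hσ) (fun a => (resEquiv_residue hσ a).symm),
    reductionModL_smul hNA hσ (resEquiv hσ) (fun a => (resEquiv_residue hσ a).symm), hxy]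

include hA hl hn hB in
theorem galAct_mem_lat {d : GQ} (hd : d • A = A)
    {f : Submodule.torsionBy ℤ (JZero N) n₀ → QBar} (hf : f ∈ lat fr B n₀) :
    galAct d f ∈ lat fr B n₀ := by
  classical
  have hd' : d⁻¹ • A = A := by
    conv_lhs => arg 2; rw [← hd]
    exact inv_smul_smul d A
  induction hf using Algebra.adjoin_induction with
  | mem g hg =>
    refine mem_of_local (redCls A) _ (fibreInd_mem_lat fr) (fun y₀ => ?_)
    have hcl : ∀ y, redCls A y = redCls A y₀ → redCls A (d⁻¹ • y) = redCls A (d⁻¹ • y₀) :=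
      fun y hy => redCls_smul_eq (hNA := hNA) hd' hy
    obtain ⟨x₀, rfl | ⟨J, j, i, hJ, rfl⟩⟩ := hg
    · refine ⟨algebraMap A _ (if redCls A (d⁻¹ • y₀) = redCls A x₀ then 1 else 0),
        Subalgebra.algebraMap_mem _ _, fun y hy => ?_⟩
      simp only [galAct, fibreInd, hcl y hy, Pi.algebraMap_apply]
      split <;> simp
    · by_cases hc : redCls A (d⁻¹ • y₀) = redCls A x₀
      swap
      · refine ⟨0, zero_mem _, fun y hy => ?_⟩
        simp [galAct, coordFun, fibreInd, hcl y hy, hc]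
      have hdB : IsBase hNA n₀ (FiniteFlat.galF N d • B) := hB.galF hd
      let Ω := {y : Submodule.torsionBy ℤ (JZero N) n₀ // redCls A y = redCls A y₀}
      haveI : Nonempty Ω := ⟨⟨y₀, rfl⟩⟩
      have hJd : ∀ y, redCls A y = redCls A y₀ →
          IsPivot fr.toFrame (redDiv (goodRed hNA)
            (rep B ((d⁻¹ • y : Submodule.torsionBy ℤ (JZero N) n₀) : JZero N))) J ∧
          FiniteFlat.galF N d • rep B ((d⁻¹ • y : Submodule.torsionBy ℤ (JZero N) n₀) : JZero N) =
            rep (FiniteFlat.galF N d • B) (y : JZero N) ∧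
          IsPivot fr.toFrame (redDiv (goodRed hNA)
            (rep (FiniteFlat.galF N d • B) (y : JZero N))) J := by
        intro y hy
        have h1 : IsPivot fr.toFrame (redDiv (goodRed hNA)
            (rep B ((d⁻¹ • y : Submodule.torsionBy ℤ (JZero N) n₀) : JZero N))) J := by
          rwa [hB.redDiv_rep_eq hA hl hn x₀ _ ((hcl y hy).trans hc).symm]
        have h2 := hB.galF_rep d hdB (d⁻¹ • y)
        rw [smul_inv_smul] at h2
        refine ⟨h1, h2, ?_⟩
        rw [← h2, redDiv_galF_decomposition hNA hd]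
        exact isPivot_smul fr hd h1
      have hmem : (fun ω : Ω => coord fr.toFrame
          (rep (FiniteFlat.galF N d • B) (ω.1 : JZero N)) J j i) ∈
          (lat fr B n₀).map (pull A (fun ω : Ω => ω.1)) := by
        haveI : Finite Ω := Subtype.finite
        have hR : HasIntValues ((lat fr B n₀).map (pull A (fun ω : Ω => ω.1))) :=
          hasIntValues_map (fun F hF y => lat_mem_valuationSubring fr hF y) _
        have hzz : ∀ ω : Ω, ω.1 = ω.1 + 0 - 0 := fun ω => by rw [add_zero, sub_zero]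
        have hpull : ∀ J', IsPivot fr.toFrame (redDiv (goodRed hNA) (rep B (y₀ : JZero N))) J' →
            ∀ j i, (fun ω : Ω => coord fr.toFrame (rep B (ω.1 : JZero N)) J' j i) ∈
              (lat fr B n₀).map (pull A (fun ω : Ω => ω.1)) := fun J' hJ' j i =>
          coord_pull_mem hA hl hn fr hB (fun ω : Ω => ω.1) (⟨y₀, rfl⟩ : Ω) (fun ω => ω.2) hJ' j i
        exact coord_rep_mem (Ω := Ω) hA hl hn fr hR hB hdB hB hdB
          (add_sub_cancel_left B (FiniteFlat.galF N d • B)).symm
          (x := fun ω : Ω => ω.1) (y := fun _ : Ω => 0) (t := fun _ : Ω => 0)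
          (z := fun ω : Ω => ω.1) hzz (⟨y₀, rfl⟩ : Ω) (fun ω => ω.2) (fun _ => rfl) (fun _ => rfl)
          hpull (fun J' _ j i => coord_const_mem fr _ J' j i)
          (fun J' _ j i => coord_const_mem fr _ J' j i) (hJd y₀ rfl).2.2 j i
      obtain ⟨G, hG, hGe⟩ := hmem
      refine ⟨G, hG, fun y hy => ?_⟩
      refine Eq.trans ?_ (congrFun hGe ⟨y, hy⟩).symm
      obtain ⟨h1, h2, h3⟩ := hJd y hy
      show d (fibreInd (redCls A) x₀ (d⁻¹ • y) * _) = _
      rw [fibreInd, if_pos ((hcl y hy).trans hc), one_mul]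
      have h4 := coord_galF fr d (hB.nonneg_rep _) (hB.degree_rep _) h1
        (by rw [h2]; exact hdB.nonneg_rep _) (by rw [h2]; exact hdB.degree_rep _)
        (by rw [h2]; exact h3) j i
      rw [h2] at h4
      exact h4.symm
  | algebraMap a =>
    have e : galAct d (algebraMap A (Submodule.torsionBy ℤ (JZero N) n₀ → QBar) a) =
        algebraMap A (Submodule.torsionBy ℤ (JZero N) n₀ → QBar)
          ⟨d a, map_mem_of_mem_decomposition hd a.2⟩ := funext fun y => rfl
    rw [e]
    exact Subalgebra.algebraMap_mem _ _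
  | add a b _ _ ha hb =>
    have e : galAct d (a + b) = galAct d a + galAct d b := funext fun y => by simp [galAct]
    rw [e]; exact add_mem ha hb
  | mul a b _ _ ha hb =>
    have e : galAct d (a * b) = galAct d a * galAct d b := funext fun y => by simp [galAct]
    rw [e]; exact mul_mem ha hb

variable (hNA) in
/-- The subgroup fixing the base divisor and all reduced classes. -/
def fixU (B : Divisor QBar (modularFunctionFieldBar N)) (n₀ : ℤ) : Subgroup GQ where
  carrier := {σ | FiniteFlat.galF N σ • B = B ∧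
    ∀ x : Submodule.torsionBy ℤ (JZero N) n₀, redCls A (σ • x) = redCls A x}
  one_mem' := ⟨by simp only [FiniteFlat.galF, map_one, one_smul], fun x => by rw [one_smul]⟩
  mul_mem' := by
    rintro a b ⟨ha, ha'⟩ ⟨hb, hb'⟩
    refine ⟨?_, fun x => by rw [mul_smul, ha', hb']⟩
    simp only [FiniteFlat.galF, map_mul, mul_smul] at *
    rw [hb, ha]
  inv_mem' := by
    rintro a ⟨ha, ha'⟩
    refine ⟨?_, fun x => by
      conv_rhs => rw [← smul_inv_smul a x, ha']⟩
    simp only [FiniteFlat.galF, map_inv] at *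
    rw [inv_smul_eq_iff, ha]

theorem isOpen_fixU : IsOpen (fixU (A := A) B n₀ : Set GQ) := by
  obtain ⟨L₁, hL₁, h₁⟩ := exists_fixing_divisor (N := N) B
  obtain ⟨L₂, hL₂, h₂⟩ := exists_fixing_classes (N := N)
    fun x : Submodule.torsionBy ℤ (JZero N) n₀ => (x : JZero N)
  haveI := hL₁
  haveI := hL₂
  refine Subgroup.isOpen_mono (H₁ := (L₁ ⊔ L₂).fixingSubgroup) (fun σ hσ => ⟨?_, fun x => ?_⟩)
    (IntermediateField.fixingSubgroup_isOpen _)
  · exact h₁ σ (IntermediateField.fixingSubgroup_antitone le_sup_left hσ)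
  · unfold redCls
    rw [coe_smul_jTorsion, h₂ σ (IntermediateField.fixingSubgroup_antitone le_sup_right hσ) x]

include hA hl hn hB in
theorem galAct_fixU {u : GQ} (hu : u ∈ fixU (A := A) B n₀)
    {g : Submodule.torsionBy ℤ (JZero N) n₀ → QBar} (hg : g ∈ gens fr B n₀) : galAct u g = g := by
  classical
  obtain ⟨huB, hux⟩ := hu
  have hcl : ∀ y : Submodule.torsionBy ℤ (JZero N) n₀, redCls A (u⁻¹ • y) = redCls A y := fun y => by
    conv_rhs => rw [← smul_inv_smul u y, hux]
  obtain ⟨x₀, rfl | ⟨J, j, i, hJ, rfl⟩⟩ := hg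
  · funext y
    simp only [galAct, fibreInd, hcl]
    split <;> simp
  · funext y
    show u (fibreInd (redCls A) x₀ (u⁻¹ • y) * _) = fibreInd (redCls A) x₀ y * _
    by_cases hc : redCls A y = redCls A x₀
    · rw [fibreInd, fibreInd, if_pos ((hcl y).trans hc), if_pos hc, one_mul, one_mul]
      have hB' : IsBase hNA n₀ (FiniteFlat.galF N u • B) := by rw [huB]; exact hB
      have h2 := hB.galF_rep u hB' (u⁻¹ • y)
      rw [smul_inv_smul, huB] at h2
      have h4 := coord_galF fr u (J := J)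
        (D := rep B ((u⁻¹ • y : Submodule.torsionBy ℤ (JZero N) n₀) : JZero N))
        (hB.nonneg_rep _) (hB.degree_rep _)
        (by rwa [hB.redDiv_rep_eq hA hl hn x₀ _ ((hcl y).trans hc).symm])
        (by rw [h2]; exact hB.nonneg_rep _) (by rw [h2]; exact hB.degree_rep _)
        (by rw [h2]; rwa [hB.redDiv_rep_eq hA hl hn x₀ _ hc.symm]) j i
      rw [h2] at h4
      exact h4.symm
    · rw [fibreInd, fibreInd, if_neg (fun h => hc ((hcl y).symm.trans h)), if_neg hc, zero_mul,
        zero_mul, map_zero]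

include hA hl hn hB in
theorem lat_le_span :
    Subalgebra.toSubmodule (lat fr B n₀) ≤ Submodule.span A
      {f | f ∈ lat fr B n₀ ∧ ∀ u ∈ fixU (A := A) B n₀, galAct u f = f} := by
  rw [lat, Algebra.adjoin_eq_span]
  refine Submodule.span_mono fun f hf => ?_
  induction hf using Submonoid.closure_induction with
  | mem g hg => exact ⟨Algebra.subset_adjoin hg, fun u hu => galAct_fixU hA hl hn fr hB hu hg⟩
  | one => exact ⟨one_mem _, fun u _ => funext fun y => by simp [galAct]⟩
  | mul a b _ _ ha hb =>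
    refine ⟨mul_mem ha.1 hb.1, fun u hu => funext fun y => ?_⟩
    have h1 := congrFun (ha.2 u hu) y
    have h2 := congrFun (hb.2 u hu) y
    simp only [galAct, Pi.mul_apply, map_mul] at h1 h2 ⊢
    rw [h1, h2]

include hA hl hn hB in
theorem separates {x y : Submodule.torsionBy ℤ (JZero N) n₀}
    (hxy : ∀ f ∈ lat fr B n₀, f x = f y) : x = y := by
  classical
  have hc : redCls A y = redCls A x := by
    by_contra h
    have := hxy _ (fibreInd_mem_lat fr x)
    simp [fibreInd, h] at this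
  obtain ⟨J, hJ⟩ := exists_isPivot fr.toFrame
    (redDiv_nonneg (goodRed hNA) (hB.nonneg_rep (x : JZero N)))
    ((degree_redDiv (goodRed hNA) _).trans (hB.degree_rep _))
  have heq := eq_of_coord_eq fr.toFrame (hB.nonneg_rep (x : JZero N)) (hB.degree_rep _) hJ
    (hB.nonneg_rep (y : JZero N)) (hB.degree_rep _)
    (by rwa [hB.redDiv_rep_eq hA hl hn x y hc.symm]) (fun j => funext fun i => by
      have := hxy _ (coordFun_mem_lat fr x hJ j i)
      simpa [coordFun, fibreInd, hc] using this.symm)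
  obtain ⟨-, hd, hx⟩ := isRep_rep hB (x : JZero N)
  obtain ⟨-, hd', hy⟩ := isRep_rep hB (y : JZero N)
  refine Subtype.ext ?_
  rw [← hx, ← hy]
  exact congrArg Pic0.mk (Subtype.ext (congrArg (· - B) heq.symm))

include hA hl hn hB in
theorem congr_of_redCls_eq {f : Submodule.torsionBy ℤ (JZero N) n₀ → QBar}
    (hf : f ∈ lat fr B n₀) {x y : Submodule.torsionBy ℤ (JZero N) n₀}
    (hxy : redCls A x = redCls A y) : f x - f y ∈ A.nonunits := by
  classical
  have hzero : (0 : QBar) ∈ A.nonunits := by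
    rw [ValuationSubring.mem_nonunits_iff, map_zero]; exact zero_lt_one
  induction hf using Algebra.adjoin_induction with
  | mem g hg =>
    obtain ⟨x₀, rfl | ⟨J, j, i, hJ, rfl⟩⟩ := hg
    · rw [fibreInd, fibreInd, hxy, sub_self]; exact hzero
    · simp only [coordFun, fibreInd, hxy]
      split
      · next hc =>
        rw [one_mul, one_mul]
        have h1 := residue_coord_eq fr.toFrame (J := J) (hB.nonneg_rep (y : JZero N))
          (hB.degree_rep _) (by rwa [hB.redDiv_rep_eq hA hl hn x₀ y hc.symm])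
          (hB.nonneg_rep (x : JZero N)) (hB.degree_rep _)
          (hB.redDiv_rep_eq hA hl hn y x hxy.symm) j i
        exact Arith.residue_eq_iff.mp h1
      · rw [zero_mul, zero_mul, sub_self]; exact hzero
  | algebraMap a => simp only [Pi.algebraMap_apply, sub_self]; exact hzero
  | add a b _ _ ha hb =>
    rw [Pi.add_apply, Pi.add_apply, add_sub_add_comm]
    exact nonunits_add ha hb
  | mul a b ha' hb' ha hb =>
    rw [Pi.mul_apply, Pi.mul_apply,
      show a x * b x - a y * b y = a x * (b x - b y) + b y * (a x - a y) by ring]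
    exact nonunits_add (nonunits_mul_left (lat_mem_valuationSubring fr ha' x) hb)
      (nonunits_mul_left (lat_mem_valuationSubring fr hb' y) ha)

end Fermat.Agent.FiniteFlat.Grass

namespace Fermat.Agent.FiniteFlat

open Grass

/-- The `r`-power torsion of `J₀(N)` lies in Galois orders at every prime `r` not dividing `N`,
with functions congruent on the classes reducing to zero. -/
theorem orderProperty (N : ℕ) [NeZero N] : Mazur.Eisenstein.OrderProperty N := by
  intro r hr hrN A hA m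
  haveI : Fact r.Prime := ⟨hr⟩
  haveI : NeZero r := ⟨hr.ne_zero⟩
  haveI := Fermat.Agent.Arith.residueField_charP hA hr
  have hNA : (N : ResidueField A) ≠ 0 := fun h => hrN ((CharP.cast_eq_zero_iff _ r N).mp h)
  haveI : IsFunctionField QBar (modularFunctionFieldBar N) := isFunctionField_bar
  haveI : IsFunctionField (ResidueField A) (modularFunctionFieldFullC (ResidueField A) N) :=
    isFunctionField_full rfl hNA
  haveI : IsAlgClosed (ResidueField A) := residueField_isAlgClosed A
  have hn : (r : ℤ) ^ m ≠ 0 := pow_ne_zero _ (Nat.cast_ne_zero.mpr hr.ne_zero)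
  obtain ⟨n, ⟨fr⟩⟩ := exists_galFrame hA hr hNA
  obtain ⟨B, hB, hBfix⟩ := exists_isBase hA (hNA := hNA) hr m
  obtain ⟨O, hO⟩ := exists_galOrder_of_lattice hA hr (lat fr B ((r : ℤ) ^ m))
    (fun f hf y => lat_mem_valuationSubring fr hf y)
    (fun d hd f hf => galAct_mem_lat hA hr hn fr hB hd hf)
    (isOpen_fixU (A := A) (B := B) (n₀ := (r : ℤ) ^ m))
    (fun σ hσ => ⟨hBfix σ hσ, fun x => by
      unfold redCls
      rw [coe_smul_jTorsion]
      exact reductionModL_inertia hNA hσ _⟩)
    (lat_le_span hA hr hn fr hB)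
    (fun x y h => separates hA hr hn fr hB h)
    (fun f hf => by
      obtain ⟨k, a, b, ha, hb, hab⟩ := exists_sum_of_mem_latSq fr
        (add_mem_latSq hA hr hn fr hB hf)
      exact ⟨k, a, b, ha, hb, hab⟩)
    (fun f hf => neg_mem_lat hA hr hn fr hB hf)
  refine ⟨Submodule.torsionBy ℤ (JZero N) ((r : ℤ) ^ m), inferInstance, inferInstance,
    inferInstance, (Submodule.torsionBy ℤ (JZero N) ((r : ℤ) ^ m)).subtype.toAddMonoidHom, O,
    Subtype.val_injective, fun g x => coe_smul_jTorsion N _ g x, fun x hx => ?_, ?_⟩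
  · refine ⟨⟨x, (Submodule.mem_torsionBy_iff _ _).mpr ?_⟩, rfl⟩
    rw [← Nat.cast_pow, natCast_zsmul]
    exact hx
  · intro f hf x hx
    rw [hO] at hf
    exact congr_of_redCls_eq hA hr hn fr hB hf.1 (hx.trans (map_zero (reductionModL A N)).symm)

end Fermat.Agent.FiniteFlat

end
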