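import Fermat.Agent.JacTorsion.Main
import Fermat.Agent.Arith.Places

/-!
# The torsion of `J₀(N)` as a finite Galois module
-/

set_option autoImplicit false

noncomputable section

open ModularCurve AlgebraicCurve
open Fermat.Agent.Arith

namespace Fermat.Agent.FiniteFlat

variable (N : ℕ) (n : ℤ)

theorem smul_mem_torsionBy_jZero (σ : GQ) {x : JZero N}
    (hx : x ∈ Submodule.torsionBy ℤ (JZero N) n) : σ • x ∈ Submodule.torsionBy ℤ (JZero N) n := by
  rw [Submodule.mem_torsionBy_iff] at hx ⊢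
  have h1 : σ • (n • x) = n • (σ • x) :=
    map_zsmul (DistribSMul.toAddMonoidHom (JZero N) σ) n x
  rw [← h1, hx, smul_zero]

instance jTorsionSMul : SMul GQ ↥(Submodule.torsionBy ℤ (JZero N) n) where
  smul σ x := ⟨σ • (x : JZero N), smul_mem_torsionBy_jZero N n σ x.2⟩

@[simp]
theorem coe_smul_jTorsion (σ : GQ) (x : ↥(Submodule.torsionBy ℤ (JZero N) n)) :
    ((σ • x : ↥(Submodule.torsionBy ℤ (JZero N) n)) : JZero N) = σ • (x : JZero N) := rfl

instance jTorsionAction : DistribMulAction GQ ↥(Submodule.torsionBy ℤ (JZero N) n) where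
  one_smul x := Subtype.ext (one_smul GQ (x : JZero N))
  mul_smul σ τ x := Subtype.ext (mul_smul σ τ (x : JZero N))
  smul_zero σ := Subtype.ext (smul_zero σ)
  smul_add σ x y := Subtype.ext (smul_add σ (x : JZero N) (y : JZero N))

theorem finite_torsionBy_jZero [NeZero N] {n : ℤ} (hn : n ≠ 0) :
    Finite ↥(Submodule.torsionBy ℤ (JZero N) n) := by
  haveI : NeZero n.natAbs := ⟨Int.natAbs_ne_zero.mpr hn⟩
  haveI : Finite ↥(Submodule.torsionBy ℤ (JZero N) (n.natAbs : ℤ)) :=
    JacTorsion.finite_torsion_JZero N n.natAbs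
  refine Finite.of_injective (fun x => (⟨(x : JZero N), ?_⟩ :
    ↥(Submodule.torsionBy ℤ (JZero N) (n.natAbs : ℤ)))) fun x y h =>
      Subtype.ext (congrArg Subtype.val h :)
  have hx := (Submodule.mem_torsionBy_iff _ _).mp x.2
  rw [Submodule.mem_torsionBy_iff]
  obtain h | h : (n.natAbs : ℤ) = n ∨ (n.natAbs : ℤ) = -n := by omega
  · rw [h]; exact hx
  · rw [h, neg_smul, hx, neg_zero]

instance finite_jTorsion [NeZero N] (r m : ℕ) [NeZero r] :
    Finite ↥(Submodule.torsionBy ℤ (JZero N) ((r : ℤ) ^ m)) :=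
  finite_torsionBy_jZero N (pow_ne_zero _ (Nat.cast_ne_zero.mpr (NeZero.ne r)))

end Fermat.Agent.FiniteFlat

end
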