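import Fermat.Agent.FiniteFlat.Fixed

/-!
# Stabilisers of divisors and base divisors fixed by inertia

Divisors and divisor classes of `X₀(N)` over `ℚ̄` have open stabilisers in the Galois group, and
finitely many reduced classes admit a common generic base divisor which lifts to a divisor fixed by
inertia.
-/

set_option autoImplicit false
set_option maxHeartbeats 1000000
set_option synthInstance.maxHeartbeats 400000
set_option linter.unusedSectionVars false

noncomputable section

open IsLocalRing ModularCurve AlgebraicCurve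
open Fermat.Agent.Arith Fermat.Agent.FF Fermat.Agent.RedTorsion Fermat.Agent.EichlerShimura

namespace Fermat.Agent.FiniteFlat

section Level

variable {N : ℕ} [NeZero N]

local notation "Fb" => modularFunctionFieldBar N

variable [IsFunctionField QBar (modularFunctionFieldBar N)]

/-- Finitely many functions are fixed by an open subgroup. -/
theorem exists_fixing_functions {ι : Type*} [Finite ι] (f : ι → Fb) :
    ∃ L : IntermediateField ℚ QBar, FiniteDimensional ℚ L ∧
      ∀ σ : GQ, σ ∈ L.fixingSubgroup → ∀ i, galF N σ • f i = f i := by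
  choose E hE hEc using fun i => mem_finCoeff.mp (mem_finCoeff_full (F := Fb) hFb (f i).2)
  haveI := hE
  refine ⟨⨆ i, E i, IntermediateField.finiteDimensional_iSup_of_finite, fun σ hσ i => ?_⟩
  refine Subtype.ext ?_
  rw [coe_galF_smul]
  ext k
  rw [coeffMap_coeff]
  exact (IntermediateField.mem_fixingSubgroup_iff _ _).mp hσ _
    (le_iSup E i (hEc i k))

/-- Every divisor is fixed by an open subgroup. -/
theorem exists_fixing_divisor (D : Divisor QBar Fb) :
    ∃ L : IntermediateField ℚ QBar, FiniteDimensional ℚ L ∧
      ∀ σ : GQ, σ ∈ L.fixingSubgroup → galF N σ • D = D := by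
  obtain ⟨c, hc1, hc⟩ := exists_threshold (K := QBar) (F := Fb)
  set m : ℤ := c + 1 + |Divisor.degree D| with hm
  set D' : Divisor QBar Fb := m • poleDiv N - D with hD'
  have hd : c + 1 ≤ Divisor.degree D' := by
    have h1 := one_le_degree_poleDiv (N := N)
    have h2 := le_abs_self (Divisor.degree D)
    have h3 : 0 ≤ m := by have := abs_nonneg (Divisor.degree D); omega
    rw [hD', map_sub, map_zsmul, smul_eq_mul]
    nlinarith
  let b := Module.finBasis QBar (riemannRochSpace D')
  obtain ⟨L, hL, hfix⟩ := exists_fixing_functions (N := N) fun i => ((b i : riemannRochSpace D') : Fb)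
  refine ⟨L, hL, fun σ hσ => ?_⟩
  have hmap : ∀ f ∈ riemannRochSpace D', galF N σ⁻¹ • f ∈ riemannRochSpace D' := by
    intro f hf
    have hf' : f ∈ Submodule.span QBar (Set.range fun i => ((b i : riemannRochSpace D') : Fb)) := by
      have h1 := congrArg (fun x : riemannRochSpace D' => (x : Fb)) (b.sum_repr ⟨f, hf⟩)
      simp only [Submodule.coe_sum, SetLike.val_smul] at h1
      rw [← h1]
      exact sum_mem fun i _ => Submodule.smul_mem _ _ (Submodule.subset_span ⟨i, rfl⟩)
    induction hf' using Submodule.span_induction with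
    | mem g hg =>
      obtain ⟨i, rfl⟩ := hg
      simp only [hfix σ⁻¹ (inv_mem hσ) i]
      exact (b i).2
    | zero => rw [smul_zero]; exact zero_mem _
    | add u v hu hv ih1 ih2 =>
      have hu' : u ∈ riemannRochSpace D' := by
        refine Submodule.span_le.mpr ?_ hu
        rintro _ ⟨i, rfl⟩; exact (b i).2
      have hv' : v ∈ riemannRochSpace D' := by
        refine Submodule.span_le.mpr ?_ hv
        rintro _ ⟨i, rfl⟩; exact (b i).2
      rw [smul_add]
      exact add_mem (ih1 hu') (ih2 hv')
    | smul a u hu ih =>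
      have hu' : u ∈ riemannRochSpace D' := by
        refine Submodule.span_le.mpr ?_ hu
        rintro _ ⟨i, rfl⟩; exact (b i).2
      rw [galF_smul_smul]
      exact Submodule.smul_mem _ _ (ih hu')
  have hle : riemannRochSpace D' ≤ riemannRochSpace (galF N σ • D') := fun f hf => by
    have h1 := galF_mem_riemannRochSpace σ (hmap f hf)
    rwa [smul_smul, ← map_mul, mul_inv_cancel, map_one, one_smul] at h1
  have h2 := eq_of_le_of_degree_le (le_of_riemannRochSpace_le hc hd hle)
    (SemilinearAut.degree_smul _ _).le
  rw [hD', smul_sub, galF_smul_mul_poleDiv] at h2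
  exact (sub_right_injective h2).symm

/-- Finitely many divisors are fixed by an open subgroup. -/
theorem exists_fixing_divisors {ι : Type*} [Finite ι] (D : ι → Divisor QBar Fb) :
    ∃ L : IntermediateField ℚ QBar, FiniteDimensional ℚ L ∧
      ∀ σ : GQ, σ ∈ L.fixingSubgroup → ∀ i, galF N σ • D i = D i := by
  choose L hL hfix using fun i => exists_fixing_divisor (N := N) (D i)
  haveI := hL
  exact ⟨⨆ i, L i, IntermediateField.finiteDimensional_iSup_of_finite,
    fun σ hσ i => hfix i σ (IntermediateField.fixingSubgroup_antitone (le_iSup L i) hσ)⟩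

/-- The stabiliser of a divisor is open. -/
theorem isOpen_stab_divisor (D : Divisor QBar Fb) : IsOpen {σ : GQ | galF N σ • D = D} := by
  obtain ⟨L, hL, hfix⟩ := exists_fixing_divisor (N := N) D
  let H : Subgroup GQ := (MulAction.stabilizer (SemilinearAut QBar Fb) D).comap
    (arithmeticGalois (modularFunctionFieldFull N))
  have hH : IsOpen (H : Set GQ) :=
    Subgroup.isOpen_mono (H₁ := L.fixingSubgroup) hfix (IntermediateField.fixingSubgroup_isOpen L)
  exact hH

/-- Finitely many classes are fixed by an open subgroup. -/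
theorem exists_fixing_classes {ι : Type*} [Finite ι] (x : ι → JZero N) :
    ∃ L : IntermediateField ℚ QBar, FiniteDimensional ℚ L ∧
      ∀ σ : GQ, σ ∈ L.fixingSubgroup → ∀ i, σ • x i = x i := by
  choose D hD using fun i => Pic0.mk_surjective (x i)
  obtain ⟨L, hL, hfix⟩ := exists_fixing_divisors (N := N) fun i => (D i : Divisor QBar Fb)
  refine ⟨L, hL, fun σ hσ i => ?_⟩
  rw [← hD i, galois_smul_pic0_def, SemilinearAut.pic0_smul_mk]
  exact congrArg Pic0.mk (Subtype.ext (hfix σ hσ i))

/-- A finite set of classes has an open pointwise stabiliser. -/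
theorem exists_isOpen_fixing_classes {ι : Type*} [Finite ι] (x : ι → JZero N) :
    ∃ U : Subgroup GQ, IsOpen (U : Set GQ) ∧ ∀ σ ∈ U, ∀ i, σ • x i = x i := by
  obtain ⟨L, hL, hfix⟩ := exists_fixing_classes x
  exact ⟨L.fixingSubgroup, IntermediateField.fixingSubgroup_isOpen L, hfix⟩

variable {A : ValuationSubring QBar} {l : ℕ}
  (hA : A.LiesOverPrime l) (hl : l.Prime) (hNA : (N : ResidueField A) ≠ 0)
  [IsFunctionField (ResidueField A) (modularFunctionFieldFullC (ResidueField A) N)]

local notation "Fk" => modularFunctionFieldFullC (ResidueField A) N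

include hA hl in
/-- A base divisor fixed by inertia, generic for finitely many reduced classes. -/
theorem exists_base {ι : Type*} [Finite ι] (c : ι → JZeroC (ResidueField A) N) :
    ∃ B : Divisor QBar Fb, 0 ≤ B ∧ Divisor.degree B = genusFF QBar Fb ∧
      (∀ σ ∈ A.inertiaSubgroupIn ℚ, galF N σ • B = B) ∧
      ∀ i, ∀ (D : Divisor (ResidueField A) Fk)
        (hD : D ∈ Divisor.degZero (K := ResidueField A) (F := Fk)), Pic0.mk ⟨D, hD⟩ = c i →
        ell (ResidueField A) (D + redDiv (goodRed hNA) B) = 1 := by
  classical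
  haveI : IsAlgClosed (ResidueField A) := residueField_isAlgClosed A
  set h := goodRed (A := A) hNA
  choose C hC using fun i => Pic0.mk_surjective (c i)
  obtain ⟨Bb, hB0, hBd, hBS, hBell⟩ := exists_generic (fun i => (C i : Divisor (ResidueField A) Fk))
    (fun i => Divisor.mem_degZero.mp (C i).2)
    (S := {v | redDiv h (poleDiv N) v ≠ 0})
    ((redDiv h (poleDiv N)).finite_support)
  have hlift : ∀ v ∈ Bb.support, ∃ P : Place QBar Fb, redPlace h P = v ∧
      ∀ σ ∈ A.inertiaSubgroupIn ℚ, galF N σ • P = P := fun v hv =>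
    exists_fixed_place hA hl hNA (not_not.mp (hBS v (Finsupp.mem_support_iff.mp hv)))
  choose! P hPv hPfix using hlift
  have hred : redDiv h (∑ v ∈ Bb.support, Finsupp.single (P v) (Bb v)) = Bb := by
    rw [map_sum]
    conv_rhs => rw [← Finsupp.sum_single Bb]
    exact Finset.sum_congr rfl fun v hv => by rw [redDiv_single, hPv v hv]
  refine ⟨∑ v ∈ Bb.support, Finsupp.single (P v) (Bb v), ?_, ?_, fun σ hσ => ?_, ?_⟩
  · exact Finset.sum_nonneg fun v _ => Finsupp.le_def.mpr fun w => by
      rcases eq_or_ne w (P v) with rfl | hw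
      · simpa using Finsupp.le_def.mp hB0 v
      · simp [hw]
  · rw [← degree_redDiv h, hred, hBd, genusFF_eq_of_goodRed h]
  · rw [Finset.smul_sum]
    exact Finset.sum_congr rfl fun v hv => by rw [SemilinearAut.smul_single, hPfix v hv σ hσ]
  intro i D hD hDc
  rw [hred, ← hBell i]
  obtain ⟨f, hf, hfdiv⟩ : D - (C i : Divisor (ResidueField A) Fk) ∈
      Divisor.principal (K := ResidueField A) (F := Fk) := by
    have h1 := QuotientAddGroup.eq.mp (hDc.trans (hC i).symm).symm
    rw [AddSubgroup.mem_addSubgroupOf] at h1
    simpa [neg_add_eq_sub] using h1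
  have he : D - (C i : Divisor (ResidueField A) Fk) = FF.div (ResidueField A) f :=
    Finsupp.ext fun v => by rw [hfdiv v, FF.div_apply]
  rw [← ell_add_div hf ((C i : Divisor (ResidueField A) Fk) + Bb), ← he]
  congr 1
  abel

end Level

end Fermat.Agent.FiniteFlat

end
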