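import Fermat.Agent.FiniteFlat.Grass
import Fermat.Agent.FiniteFlat.Stab
import Fermat.Agent.FiniteFlat.JTorsion
import Fermat.Agent.FiniteFlat.PlaceReduction
import Fermat.Agent.CurveTorsion.Classes

/-!
# Effective representatives of torsion classes, their reductions and coordinates

Reduction of divisors commutes with the decomposition group. With a base divisor generic for the
reductions, every torsion class has a unique effective representative, whose reduction depends only
on the reduced class. Galois acts on the coordinates of representatives through the coefficients.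
-/

set_option autoImplicit false
set_option maxHeartbeats 1000000
set_option synthInstance.maxHeartbeats 400000
set_option linter.unusedSectionVars false

noncomputable section

open IsLocalRing ModularCurve AlgebraicCurve
open Fermat.Agent.Arith Fermat.Agent.FF Fermat.Agent.RedTorsion Fermat.Agent.EichlerShimura
open scoped Pointwise

namespace Fermat.Agent.FiniteFlat.Grass

attribute [local instance 10000] serModule serSMul

section Curve

variable {K E : Type*} [Field K] [Field E] [Algebra K E] [IsFunctionField K E]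

theorem smul_mem_riemannRochSpace (g : SemilinearAut K E) {D : Divisor K E} {f : E}
    (hf : f ∈ riemannRochSpace D) : g • f ∈ riemannRochSpace (g • D) := by
  rcases eq_or_ne f 0 with rfl | hf0
  · rw [smul_zero]; exact zero_mem _
  rw [mem_riemannRochSpace'] at hf ⊢
  intro w
  have h1 := le_ord_of_mem_ordGe _ hf0 (hf (g⁻¹ • w))
  refine mem_ordGe_of_le w ?_
  rw [SemilinearAut.divisor_smul_apply]
  conv_rhs => rw [← smul_inv_smul g w]
  rw [SemilinearAut.ord_smul]
  exact h1

theorem exists_div_eq_of_mk_eq {D D' : Divisor.degZero (K := K) (F := E)}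
    (h : Pic0.mk D = Pic0.mk D') :
    ∃ f : E, f ≠ 0 ∧ (D' : Divisor K E) = D + div K f := by
  have h1 := QuotientAddGroup.eq.mp h
  rw [AddSubgroup.mem_addSubgroupOf] at h1
  obtain ⟨f, hf, hfd⟩ := h1
  refine ⟨f, hf, Finsupp.ext fun v => ?_⟩
  have := hfd v
  simp only [AddMemClass.coe_add, NegMemClass.coe_neg, Finsupp.add_apply, Finsupp.neg_apply]
    at this
  rw [Finsupp.add_apply, div_apply]
  omega

theorem mk_eq_of_div {D D' : Divisor.degZero (K := K) (F := E)} {f : E} (hf : f ≠ 0)
    (h : (D' : Divisor K E) = D + div K f) : Pic0.mk D = Pic0.mk D' := by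
  refine QuotientAddGroup.eq.mpr (AddSubgroup.mem_addSubgroupOf.mpr ⟨f, hf, fun v => ?_⟩)
  simp only [AddMemClass.coe_add, NegMemClass.coe_neg, Finsupp.add_apply, Finsupp.neg_apply,
    h, div_apply]
  omega

theorem poles_smul (g : SemilinearAut K E) (f : E) : g • poles K f = poles K (g • f) := by
  ext w
  rw [SemilinearAut.divisor_smul_apply, poles_apply, poles_apply]
  conv_rhs => rw [← smul_inv_smul g w, SemilinearAut.ord_smul]

end Curve

variable {N : ℕ} [NeZero N] {A : ValuationSubring QBar} {l : ℕ}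

local notation "Fb" => modularFunctionFieldBar N
local notation "Fk" => modularFunctionFieldFullC (ResidueField A) N

section ResidueAut

variable {σ : GQ}

/-- An element of the decomposition group as an automorphism of `A`. -/
def valEquiv (hσ : σ • A = A) : A ≃+* A where
  toFun a := ⟨σ a, map_mem_of_mem_decomposition hσ a.2⟩
  invFun a := ⟨σ⁻¹ a, map_mem_of_mem_decomposition
    (show σ⁻¹ • A = A by conv_lhs => arg 2; rw [← hσ]
                         exact inv_smul_smul σ A) a.2⟩
  left_inv a := Subtype.ext (σ.symm_apply_apply _)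
  right_inv a := Subtype.ext (σ.apply_symm_apply _)
  map_mul' a b := Subtype.ext (map_mul σ (a : QBar) (b : QBar))
  map_add' a b := Subtype.ext (map_add σ (a : QBar) (b : QBar))

/-- The induced automorphism of the residue field. -/
def resEquiv (hσ : σ • A = A) : ResidueField A ≃+* ResidueField A :=
  ResidueField.mapEquiv (valEquiv hσ)

theorem resEquiv_residue (hσ : σ • A = A) (x : A) :
    resEquiv hσ (residue A x) = residue A ⟨σ x, map_mem_of_mem_decomposition hσ x.2⟩ := rfl

theorem coeffAut_smul_smul (φ : ResidueField A ≃+* ResidueField A) (a : ResidueField A) (f : Fk) :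
    coeffAut N φ • (a • f) = φ a • (coeffAut N φ • f) := by
  rw [Algebra.smul_def, Algebra.smul_def, smul_mul', SemilinearAut.smul_algebraMap]
  rfl

end ResidueAut

variable [IsFunctionField QBar (modularFunctionFieldBar N)]
  [IsFunctionField (ResidueField A) (modularFunctionFieldFullC (ResidueField A) N)]
  (hA : A.LiesOverPrime l) (hl : l.Prime) (hNA : (N : ResidueField A) ≠ 0)

/-- Reduction of divisors commutes with the decomposition group. -/
theorem redDiv_galF_decomposition {σ : GQ} (hσ : σ • A = A) (D : Divisor QBar Fb) :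
    redDiv (goodRed hNA) (galF N σ • D) =
      coeffAut N (resEquiv hσ) • redDiv (goodRed hNA) D := by
  haveI : IsAlgClosed (ResidueField A) := residueField_isAlgClosed A
  set φ := resEquiv (A := A) hσ
  let σA : A →+* A := (valEquiv hσ).toRingHom
  let δ : Divisor QBar Fb →+ Divisor (ResidueField A) Fk :=
    (redDiv (goodRed hNA)).comp (DistribSMul.toAddMonoidHom (Divisor QBar Fb) (galF N σ)) -
      (DistribSMul.toAddMonoidHom (Divisor (ResidueField A) Fk) (coeffAut N φ)).comp
        (redDiv (goodRed hNA))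
  have hδ : ∀ E ∈ integralPrincipalDivisors A (residue A) N, δ E = 0 := by
    intro E hE
    obtain ⟨y, hy, hyk, hne, rfl⟩ := EichlerShimura.exists_eq_div hE
    have hne' : (⟨_, hyk⟩ : Fk) ≠ 0 := fun h => hne (congrArg Subtype.val h)
    simp only [δ, AddMonoidHom.sub_apply, AddMonoidHom.comp_apply,
      DistribSMul.toAddMonoidHom_apply]
    rw [EichlerShimura.smul_div,
      redDiv_div_series hNA (y := y) (f := (⟨_, hy⟩ : Fb)) (g := (⟨_, hyk⟩ : Fk)) rfl rfl hne',
      EichlerShimura.smul_div, sub_eq_zero]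
    refine redDiv_div_series hNA (y := coeffMap σA y)
      (g := coeffAut N φ • (⟨_, hyk⟩ : Fk))
      (coeffMap_galF (σA := σA) σ (fun a => rfl) (f := (⟨_, hy⟩ : Fb)) rfl) ?_
      ((smul_ne_zero_iff_ne (coeffAut N φ)).mpr hne')
    rw [coe_coeffAut_smul, coeffMap_coeffMap, coeffMap_coeffMap]
    exact coeffMap_congr (RingHom.ext fun a => (resEquiv_residue hσ a).symm) y
  have hconst : ∀ P Q : Place QBar Fb,
      δ (Finsupp.single P 1) = δ (Finsupp.single Q 1) := fun P Q => sub_eq_zero.mp (by
    rw [← map_sub]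
    exact eq_zero_of_degree_zero hNA δ hδ _ (Divisor.mem_degZero.mpr (by
      rw [map_sub, degree_single_one, degree_single_one, sub_self])))
  have hlin : ∀ (P : Place QBar Fb) (E : Divisor QBar Fb),
      δ E = Divisor.degree E • δ (Finsupp.single P 1) := fun P E => by
    induction E using Finsupp.induction with
    | zero => simp
    | single_add v n E _ _ ih =>
      rw [map_add, map_add, ih, degree_single_one, add_smul]
      congr 1
      rw [← hconst v P, ← map_zsmul, Finsupp.smul_single, smul_eq_mul, mul_one]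
  obtain ⟨P⟩ := FF.exists_place (K := QBar) (F := Fb)
  have h0 : δ (Finsupp.single P 1) = 0 := by
    have h1 := hlin P (poleDiv N)
    have h2 : δ (poleDiv N) = 0 := by
      show redDiv (goodRed hNA) (galF N σ • poleDiv N) -
        coeffAut N φ • redDiv (goodRed hNA) (poleDiv N) = 0
      rw [galF_smul_poleDiv, redDiv_poleDiv, poles_smul, sub_eq_zero]
      congr 1
      exact (Subtype.ext (by rw [coe_coeffAut_smul, coe_jF, coeffMap_jqModC])).symm
    have hdeg := one_le_degree_poleDiv (N := N)
    refine Finsupp.ext fun Q => ?_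
    have h3 := congrArg (fun X => X Q) (h1.symm.trans h2)
    simp only [Finsupp.smul_apply, smul_eq_mul, Finsupp.coe_zero, Pi.zero_apply] at h3 ⊢
    rcases mul_eq_zero.mp h3 with h | h
    · omega
    · exact h
  have h4 := hlin P D
  rw [h0, smul_zero] at h4
  exact sub_eq_zero.mp h4

/-! ### A frame fixed by Galois -/

/-- The degree multiplier of the ambient divisor. -/
def mult : ℤ := bigDeg (goodRed (A := A) hNA) + 4 * genusFF QBar Fb

/-- The ambient divisor. -/
def ambient : Divisor QBar Fb := mult hNA • poleDiv N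

theorem galF_smul_ambient (σ : GQ) : galF N σ • ambient hNA = ambient hNA :=
  galF_smul_mul_poleDiv σ _

/-- A frame of `L(E)` fixed by Galois, with reductions fixed by the decomposition group. -/
structure GalFrame (n : ℕ) extends Frame (goodRed (A := A) hNA) (ambient hNA) n where
  fix : ∀ (σ : GQ) i, galF N σ • (u i : Fb) = u i
  fix_red : ∀ (σ : GQ) (hσ : σ • A = A) i,
    coeffAut N (resEquiv hσ) • redF (goodRed hNA).toRedLattice (u i) =
      redF (goodRed hNA).toRedLattice (u i)

include hA hl in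
theorem exists_galFrame : ∃ n, Nonempty (GalFrame (A := A) hNA n) := by
  classical
  haveI : IsAlgClosed (ResidueField A) := residueField_isAlgClosed A
  set h := goodRed (A := A) hNA
  have hd1 := one_le_degree_poleDiv (N := N)
  have hb : 0 ≤ bigDeg h := by
    have := three_le_bigDeg h; have := one_le_rrBound h; omega
  have hm : 0 ≤ mult hNA := by unfold mult; positivity
  have hbig : bigDeg h + 4 * genusFF QBar Fb ≤ Divisor.degree (ambient hNA) := by
    rw [ambient, map_zsmul, smul_eq_mul]
    exact le_mul_of_one_le_right hm hd1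
  obtain ⟨n₀, fb, hfbW, hfix, hspan⟩ := exists_rat_basis hA hl hNA (mult hNA)
  let v : Fin n₀ → Fk := fun b => redF h.toRedLattice (fb b)
  obtain ⟨t, ht, htspan, htli⟩ := exists_linearIndependent (ResidueField A) (Set.range v)
  haveI : Fintype t := ((Set.finite_range v).subset ht).fintype
  let e := (Fintype.equivFin t).symm
  choose b hbv using fun a : Fin (Fintype.card t) => ht (e a).2
  have hfixred : ∀ (σ : GQ) (hσ : σ • A = A) i,
      coeffAut N (resEquiv hσ) • redF h.toRedLattice (fb i) = redF h.toRedLattice (fb i) := by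
    intro σ hσ i
    obtain ⟨hs, hr⟩ := exists_serInt_of_mem hA hl hNA (fb i) (hfbW i)
    refine Subtype.ext ?_
    rw [coe_coeffAut_smul, ← hr]
    ext e
    rw [coeffMap_coeff, coeff_serRed]
    refine (resEquiv_residue hσ _).trans (congrArg (residue A) (Subtype.ext ?_))
    have h1 := congrArg (fun f : Fb => (f : LaurentSeries QBar).coeff e) (hfix σ i)
    simp only [coe_galF_smul, coeffMap_coeff] at h1
    exact h1
  refine ⟨_, ⟨{
    u := fun a => fb (b a)
    mem := fun a => hfbW _
    indep := ?_
    span := ?_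
    nonneg := zsmul_nonneg (poles_nonneg _) hm
    big := hbig
    fix := fun σ a => hfix σ _
    fix_red := fun σ hσ a => hfixred σ hσ _ }⟩⟩
  · have e' : (fun a => redF h.toRedLattice (fb (b a))) = fun a => ((e a : t) : Fk) := funext hbv
    show LinearIndependent (ResidueField A) fun a => redF h.toRedLattice (fb (b a))
    rw [e']
    exact htli.comp e e.injective
  · show riemannRochSpace (redDiv h (ambient hNA)) ≤ _
    have hdeg : bigDeg h ≤ Divisor.degree (mult hNA • poleDiv N) := by
      have := hbig; rw [ambient] at this; omega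
    rw [redW_riemannRochSpace h hdeg] at hspan
    refine hspan.trans (le_trans (le_of_eq htspan.symm) (Submodule.span_mono ?_))
    intro x hx
    exact ⟨e.symm ⟨x, hx⟩, (hbv _).trans (by rw [e.apply_symm_apply])⟩

variable {hNA}

theorem galFrame_smul_redDiv_ambient {σ : GQ} (hσ : σ • A = A) :
    coeffAut N (resEquiv hσ) • redDiv (goodRed hNA) (ambient hNA) =
      redDiv (goodRed hNA) (ambient hNA) := by
  rw [← redDiv_galF_decomposition hNA hσ, galF_smul_ambient]

section Coord

variable {n : ℕ} (fr : GalFrame (A := A) hNA n)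

/-- The decomposition group carries pivots to pivots. -/
theorem isPivot_smul {σ : GQ} (hσ : σ • A = A) {Db : Divisor (ResidueField A) Fk}
    {J : Fin (dimD fr.toFrame) → Fin n} (hJ : IsPivot fr.toFrame Db J) :
    IsPivot fr.toFrame (coeffAut N (resEquiv hσ) • Db) J := by
  set φ := resEquiv (A := A) hσ
  have key : ∀ (ψ : ResidueField A ≃+* ResidueField A) (D₀ : Divisor (ResidueField A) Fk),
      (∀ i, coeffAut N ψ • redF (goodRed hNA).toRedLattice (fr.u i) =
        redF (goodRed hNA).toRedLattice (fr.u i)) →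
      coeffAut N ψ • redDiv (goodRed hNA) (ambient hNA) = redDiv (goodRed hNA) (ambient hNA) →
      ∀ c ∈ spaceK fr.toFrame D₀, (fun i => ψ (c i)) ∈ spaceK fr.toFrame (coeffAut N ψ • D₀) := by
    intro ψ D₀ h1 h2 c hc
    rw [mem_spaceK] at hc ⊢
    have h3 := smul_mem_riemannRochSpace (coeffAut N ψ) hc
    rw [smul_sub, h2, Finset.smul_sum] at h3
    simpa only [coeffAut_smul_smul, h1] using h3
  have hinv : ∀ c ∈ spaceK fr.toFrame (coeffAut N φ • Db),
      (fun i => φ.symm (c i)) ∈ spaceK fr.toFrame Db := by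
    intro c hc
    have hmul : ∀ x : Fk, coeffAut N φ.symm • coeffAut N φ • x = x := fun x => Subtype.ext (by
      rw [coe_coeffAut_smul, coe_coeffAut_smul, coeffMap_coeffMap,
        coeffMap_congr (g := RingHom.id _) (RingHom.ext fun a => φ.symm_apply_apply a), coeffMap_id])
    have hu : ∀ i, coeffAut N φ.symm • redF (goodRed hNA).toRedLattice (fr.u i) =
        redF (goodRed hNA).toRedLattice (fr.u i) := fun i => by
      conv_lhs => rw [← fr.fix_red σ hσ i]
      rw [hmul]
    have hone : (coeffAut N φ.symm)⁻¹ = coeffAut N φ := by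
      refine inv_eq_of_mul_eq_one_right ?_
      refine Subtype.ext (Prod.ext (RingEquiv.ext fun x => ?_) (RingEquiv.ext fun a => ?_))
      · exact hmul x
      · exact φ.symm_apply_apply a
    have hE : coeffAut N φ.symm • redDiv (goodRed hNA) (ambient hNA) =
        redDiv (goodRed hNA) (ambient hNA) := by
      conv_lhs => rw [← galFrame_smul_redDiv_ambient (hNA := hNA) hσ]
      rw [← hone, smul_inv_smul]
    have h1 := key φ.symm _ hu hE c hc
    rwa [← hone, smul_inv_smul] at h1
  have hK := key φ Db (fr.fix_red σ hσ) (galFrame_smul_redDiv_ambient (hNA := hNA) hσ)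
  refine ⟨fun c c' hcc => ?_, fun y => ?_⟩
  · have h1 := hJ.injective (a₁ := ⟨_, hinv _ c.2⟩) (a₂ := ⟨_, hinv _ c'.2⟩)
      (funext fun t => congrArg φ.symm (congrFun hcc t))
    exact Subtype.ext (funext fun i => φ.symm.injective (congrFun (congrArg Subtype.val h1) i))
  · obtain ⟨c, hc⟩ := hJ.surjective fun t => φ.symm (y t)
    exact ⟨⟨_, hK _ c.2⟩, funext fun t => by
      show φ ((c : Fin n → ResidueField A) (J t)) = y t
      rw [show (c : Fin n → ResidueField A) (J t) = φ.symm (y t) from congrFun hc t,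
        φ.apply_symm_apply]⟩

/-- Galois acts on the coordinates through the coefficients. -/
theorem coord_galF (σ : GQ) {D : Divisor QBar Fb} {J : Fin (dimD fr.toFrame) → Fin n}
    (hD : 0 ≤ D) (hd : Divisor.degree D = genusFF QBar Fb)
    (hJ : IsPivot fr.toFrame (redDiv (goodRed hNA) D) J)
    (hD' : 0 ≤ galF N σ • D) (hd' : Divisor.degree (galF N σ • D) = genusFF QBar Fb)
    (hJ' : IsPivot fr.toFrame (redDiv (goodRed hNA) (galF N σ • D)) J)
    (j : Fin (dimD fr.toFrame)) (i : Fin n) :
    coord fr.toFrame (galF N σ • D) J j i = σ (coord fr.toFrame D J j i) := by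
  refine (congrFun (eq_coord fr.toFrame hD' hd' hJ' (j := j)
    (c := fun i => σ (coord fr.toFrame D J j i)) ?_ fun t => ?_) i).symm
  · have h1 := smul_mem_riemannRochSpace (galF N σ)
      ((mem_spaceQ fr.toFrame).mp ((coord_spec fr.toFrame hD hd hJ).1 j))
    rw [smul_sub, galF_smul_ambient, Finset.smul_sum] at h1
    rw [mem_spaceQ]
    simpa only [galF_smul_smul, fr.fix] using h1
  · rw [(coord_spec fr.toFrame hD hd hJ).2]
    split <;> simp

end Coord

/-! ### Effective representatives -/

variable {n₀ : ℤ}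

/-- `D` is an effective representative of `x` shifted by `B`. -/
def IsRep (B : Divisor QBar Fb) (x : JZero N) (D : Divisor QBar Fb) : Prop :=
  0 ≤ D ∧ ∃ hd : D - B ∈ Divisor.degZero (K := QBar) (F := Fb), Pic0.mk ⟨D - B, hd⟩ = x

theorem IsRep.degree {B D : Divisor QBar Fb} {x : JZero N} (hD : IsRep B x D) :
    Divisor.degree D = Divisor.degree B := by
  obtain ⟨-, hd, -⟩ := hD
  have h1 := Divisor.mem_degZero.mp hd
  rw [map_sub] at h1
  omega

theorem isRep_self {B : Divisor QBar Fb} (hB : 0 ≤ B) : IsRep B 0 B :=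
  ⟨hB, by rw [sub_self]; exact zero_mem _, by
    rw [show (⟨B - B, _⟩ : Divisor.degZero (K := QBar) (F := Fb)) = 0 from Subtype.ext (sub_self B)]
    exact QuotientAddGroup.mk_zero _⟩

theorem exists_isRep {B : Divisor QBar Fb} (hB : Divisor.degree B = genusFF QBar Fb) (x : JZero N) :
    ∃ D, IsRep B x D := by
  obtain ⟨C, rfl⟩ := Pic0.mk_surjective x
  have hd : Divisor.degree ((C : Divisor QBar Fb) + B) = genusFF QBar Fb := by
    rw [map_add, Divisor.mem_degZero.mp C.2, hB, zero_add]
  obtain ⟨f, hf, hpos⟩ := exists_effective_of_ell_pos (D := (C : Divisor QBar Fb) + B)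
    (lt_of_lt_of_le zero_lt_one (one_le_ell_of_degree_eq_genus hd))
  have hdz : (C : Divisor QBar Fb) + B + div QBar f - B ∈
      Divisor.degZero (K := QBar) (F := Fb) := by
    rw [Divisor.mem_degZero, map_sub, map_add, hd, degree_div, hB, add_zero, sub_self]
  refine ⟨_, hpos, hdz, (mk_eq_of_div hf ?_).symm⟩
  show (C : Divisor QBar Fb) + B + div QBar f - B = _
  abel

theorem IsRep.galF {B D : Divisor QBar Fb} {x : JZero N} (σ : GQ) (hD : IsRep B x D) :
    IsRep (galF N σ • B) (σ • x) (galF N σ • D) := by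
  obtain ⟨h0, hd, rfl⟩ := hD
  refine ⟨Finsupp.le_def.mpr fun w => ?_, ?_, ?_⟩
  · rw [SemilinearAut.divisor_smul_apply]
    exact Finsupp.le_def.mp h0 _
  · rw [← smul_sub, Divisor.mem_degZero, SemilinearAut.degree_smul]
    exact Divisor.mem_degZero.mp hd
  · rw [galois_smul_pic0_def, SemilinearAut.pic0_smul_mk]
    exact congrArg Pic0.mk (Subtype.ext (smul_sub (FiniteFlat.galF N σ) D B).symm)

theorem IsRep.combine {B₁ B₂ B₃ B₄ X Y T Z : Divisor QBar Fb} {x y t z : JZero N}
    (hX : IsRep B₁ x X) (hY : IsRep B₂ y Y) (hT : IsRep B₃ t T) (hZ : IsRep B₄ z Z)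
    (hz : z = x + y - t) (hB : B₄ = B₁ + B₂ - B₃) :
    ∃ f : Fb, f ≠ 0 ∧ Z = X + Y - T + div QBar f := by
  obtain ⟨-, hXd, rfl⟩ := hX
  obtain ⟨-, hYd, rfl⟩ := hY
  obtain ⟨-, hTd, rfl⟩ := hT
  obtain ⟨-, hZd, rfl⟩ := hZ
  have h1 : Pic0.mk ⟨Z - B₄, hZd⟩ = Pic0.mk (⟨X - B₁, hXd⟩ + ⟨Y - B₂, hYd⟩ - ⟨T - B₃, hTd⟩) := hz
  obtain ⟨f, hf, he⟩ := exists_div_eq_of_mk_eq h1.symm
  refine ⟨f, hf, ?_⟩
  simp only [AddSubgroupClass.coe_sub, AddMemClass.coe_add, hB] at he
  rw [← sub_add_cancel Z (B₁ + B₂ - B₃), he]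
  abel

variable (hNA) in
/-- A base divisor of degree `g` whose representatives of the classes killed by `n₀` have
nonspecial reductions. -/
structure IsBase (n₀ : ℤ) (B : Divisor QBar Fb) : Prop where
  nonneg : 0 ≤ B
  degree : Divisor.degree B = genusFF QBar Fb
  generic : ∀ x : Submodule.torsionBy ℤ (JZero N) n₀, ∀ D, IsRep B (x : JZero N) D →
    ell (ResidueField A) (redDiv (goodRed hNA) D) = 1

include hA in
theorem reductionModL_isRep (hl : l.Prime) (hn : n₀ ≠ 0) {B D : Divisor QBar Fb} {x : JZero N}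
    (hx : n₀ • x = 0) (hD : IsRep B x D) :
    ∃ hd : redDiv (goodRed hNA) D - redDiv (goodRed hNA) B ∈
        Divisor.degZero (K := ResidueField A) (F := Fk),
      reductionModL A N x = Pic0.mk ⟨_, hd⟩ := by
  haveI : IsAlgClosed (ResidueField A) := residueField_isAlgClosed A
  obtain ⟨-, hd, rfl⟩ := hD
  have hx' : (n₀.natAbs : ℤ) • (Pic0.mk ⟨D - B, hd⟩ : JZero N) = 0 := by
    obtain h | h : (n₀.natAbs : ℤ) = n₀ ∨ (n₀.natAbs : ℤ) = -n₀ := by omega
    · rw [h]; exact hx
    · rw [h, neg_smul, hx, neg_zero]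
  refine ⟨by rw [← map_sub, Divisor.mem_degZero, degree_redDiv]; exact Divisor.mem_degZero.mp hd, ?_⟩
  rw [reductionModL_mk_of_torsion (seriesCompat hNA)
    (reductionInputsModL (A := A) hNA).choose_spec.2 ⟨D - B, hd⟩ (n := n₀.natAbs)
    (Int.natAbs_ne_zero.mpr hn) hx']
  exact congrArg Pic0.mk (Subtype.ext (map_sub (redDiv (goodRed hNA)) D B))

variable {B : Divisor QBar (modularFunctionFieldBar N)}

theorem IsBase.unique (hB : IsBase hNA n₀ B) {x : Submodule.torsionBy ℤ (JZero N) n₀}
    {D D' : Divisor QBar Fb} (hD : IsRep B (x : JZero N) D) (hD' : IsRep B (x : JZero N) D') :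
    D' = D := by
  obtain ⟨f, hf, he⟩ := hD.combine (isRep_self hB.nonneg) (isRep_self hB.nonneg) hD'
    (by abel) (by abel)
  refine eq_of_ell_eq_one hD.1 hD'.1 ?_ (f := f) (by rw [he]; abel)
  have h1 := ell_le_ell_redDiv (goodRed hNA) D
  rw [hB.generic x D hD] at h1
  have h2 := one_le_ell_of_degree_eq_genus (D := D) (hD.degree.trans hB.degree)
  omega

/-- The effective representative. -/
def rep (B : Divisor QBar Fb) (x : JZero N) : Divisor QBar Fb :=
  open scoped Classical in
  if h : ∃ D, IsRep B x D then h.choose else 0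

theorem isRep_rep (hB : IsBase hNA n₀ B) (x : JZero N) : IsRep B x (rep B x) := by
  classical
  have h := exists_isRep hB.degree x
  rw [rep, dif_pos h]
  exact h.choose_spec

theorem IsBase.nonneg_rep (hB : IsBase hNA n₀ B) (x : JZero N) : 0 ≤ rep B x := (isRep_rep hB x).1

theorem IsBase.degree_rep (hB : IsBase hNA n₀ B) (x : JZero N) :
    Divisor.degree (rep B x) = genusFF QBar Fb :=
  (isRep_rep hB x).degree.trans hB.degree

theorem IsBase.rep_zero (hB : IsBase hNA n₀ B) : rep B 0 = B :=
  hB.unique (x := 0) (isRep_self hB.nonneg) (isRep_rep hB _)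

include hA in
theorem IsBase.redDiv_rep_eq (hl : l.Prime) (hn : n₀ ≠ 0) (hB : IsBase hNA n₀ B)
    (x y : Submodule.torsionBy ℤ (JZero N) n₀)
    (hxy : reductionModL A N (x : JZero N) = reductionModL A N (y : JZero N)) :
    redDiv (goodRed hNA) (rep B (y : JZero N)) = redDiv (goodRed hNA) (rep B (x : JZero N)) := by
  obtain ⟨hd, hx⟩ := reductionModL_isRep hA (hNA := hNA) hl hn
    ((Submodule.mem_torsionBy_iff _ _).mp x.2) (isRep_rep hB (x : JZero N))
  obtain ⟨hd', hy⟩ := reductionModL_isRep hA (hNA := hNA) hl hn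
    ((Submodule.mem_torsionBy_iff _ _).mp y.2) (isRep_rep hB (y : JZero N))
  obtain ⟨f, hf, he⟩ := exists_div_eq_of_mk_eq (hx.symm.trans (hxy.trans hy))
  refine eq_of_ell_eq_one (redDiv_nonneg _ (hB.nonneg_rep _)) (redDiv_nonneg _ (hB.nonneg_rep _))
    (hB.generic x _ (isRep_rep hB _)) (f := f) ?_
  have he' := congrArg (fun Z => Z + redDiv (goodRed hNA) B) he
  simp only [sub_add_cancel] at he'
  rw [he']
  abel

/-- Conjugates of base divisors are base divisors. -/
theorem IsBase.galF (hB : IsBase hNA n₀ B) {σ : GQ} (hσ : σ • A = A) :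
    IsBase hNA n₀ (galF N σ • B) where
  nonneg := Finsupp.le_def.mpr fun w => by
    rw [SemilinearAut.divisor_smul_apply]
    exact Finsupp.le_def.mp hB.nonneg _
  degree := (SemilinearAut.degree_smul _ _).trans hB.degree
  generic y D hD := by
    have h1 := hD.galF σ⁻¹
    rw [smul_smul, ← map_mul, inv_mul_cancel, map_one, one_smul,
      ← coe_smul_jTorsion N n₀ σ⁻¹ y] at h1
    have h2 := hB.generic _ _ h1
    have e : redDiv (goodRed hNA) D = coeffAut N (resEquiv hσ) •
        redDiv (goodRed hNA) (FiniteFlat.galF N σ⁻¹ • D) := by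
      rw [← redDiv_galF_decomposition hNA hσ, smul_smul, ← map_mul, mul_inv_cancel, map_one,
        one_smul]
    rw [e, CurveTorsion.ell_smul]
    exact h2

/-- Galois moves representatives as it moves the base. -/
theorem IsBase.galF_rep (hB : IsBase hNA n₀ B) (σ : GQ) (hB' : IsBase hNA n₀ (FiniteFlat.galF N σ • B))
    (x : Submodule.torsionBy ℤ (JZero N) n₀) :
    FiniteFlat.galF N σ • rep B (x : JZero N) =
      rep (FiniteFlat.galF N σ • B) ((σ • x : Submodule.torsionBy ℤ (JZero N) n₀) : JZero N) :=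
  hB'.unique (x := σ • x) (isRep_rep hB' _) (by
    rw [coe_smul_jTorsion]
    exact (isRep_rep hB _).galF σ)

include hA in
theorem exists_isBase (hl : l.Prime) [NeZero l] (m : ℕ) :
    ∃ B, IsBase hNA ((l : ℤ) ^ m) B ∧ ∀ σ ∈ A.inertiaSubgroupIn ℚ, galF N σ • B = B := by
  have hn : (l : ℤ) ^ m ≠ 0 := pow_ne_zero _ (Nat.cast_ne_zero.mpr hl.ne_zero)
  obtain ⟨B, hB0, hBd, hBfix, hgen⟩ := exists_base hA hl hNA
    fun x : Submodule.torsionBy ℤ (JZero N) ((l : ℤ) ^ m) => reductionModL A N (x : JZero N)
  refine ⟨B, ⟨hB0, hBd, fun x D hD => ?_⟩, hBfix⟩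
  obtain ⟨hd, hx⟩ := reductionModL_isRep hA (hNA := hNA) hl hn
    ((Submodule.mem_torsionBy_iff _ _).mp x.2) hD
  have := hgen x _ hd hx.symm
  rwa [sub_add_cancel] at this

end Fermat.Agent.FiniteFlat.Grass

end
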