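import Fermat.Agent.FiniteFlat.Instance
import Fermat.Agent.RedTorsion.SeriesField

/-!
# The functions `1/(j - c)`

For `c ∈ A` the expansion of `1/(j - c)` is integral and without polar part, its reduction is
`1/(j̄ - c̄)`, and reduction of divisors carries its poles to those of the reduction.  Functions
of the lattice with bounded expansions have integral expansions, reduced coefficientwise.
-/

set_option autoImplicit false
set_option maxHeartbeats 1000000
set_option synthInstance.maxHeartbeats 400000
set_option linter.unusedSectionVars false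

noncomputable section

open IsLocalRing ModularCurve AlgebraicCurve IntermediateField
open Fermat.Agent.Arith Fermat.Agent.FF Fermat.Agent.RedTorsion Fermat.Agent.EichlerShimura

namespace Fermat.Agent.FiniteFlat

attribute [local instance 10000] serModule serSMul

section Field

variable {K : Type*} [Field K] {N : ℕ} [NeZero N] {F : IntermediateField K (LaurentSeries K)}
  (hF : F = modularFunctionFieldFullC K N)

/-- `1/(j - c)`. -/
def shiftInv (c : K) : F := (jF hF - algebraMap K F c)⁻¹

theorem coe_shiftInv (c : K) :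
    (shiftInv hF c : LaurentSeries K) = (jqModC K - algebraMap K (LaurentSeries K) c)⁻¹ := by
  rw [shiftInv, IntermediateField.coe_inv, AddSubgroupClass.coe_sub, coe_jF,
    IntermediateField.coe_algebraMap_apply]

theorem transcendental_shiftInv (c : K) : Transcendental K (shiftInv hF c) := fun h => by
  have h1 := (IsAlgebraic.inv_iff.mp h).add (isAlgebraic_algebraMap c)
  rw [sub_add_cancel] at h1
  exact transcendental_jF hF h1

theorem adjoin_shiftInv [IsFunctionField K F] (c : K) : K⟮shiftInv hF c⟯ = K⟮jF hF⟯ := by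
  rw [shiftInv, adjoin_inv_eq]
  refine le_antisymm (adjoin_simple_le_iff.mpr
    (sub_mem (mem_adjoin_simple_self K _) (IntermediateField.algebraMap_mem _ c))) (adjoin_simple_le_iff.mpr ?_)
  have h := add_mem (mem_adjoin_simple_self K (jF hF - algebraMap K F c))
    (IntermediateField.algebraMap_mem K⟮jF hF - algebraMap K F c⟯ c)
  rwa [sub_add_cancel] at h

theorem degree_poles_shiftInv [IsFunctionField K F] (c : K) :
    Divisor.degree (poles K (shiftInv hF c)) = Module.finrank K⟮jF hF⟯ F := by
  rw [degree_poles (transcendental_shiftInv hF c), adjoin_shiftInv hF c]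

/-- The poles of `1/(j - c)` and of `1/(j - c')` are disjoint. -/
theorem poles_shiftInv_disjoint [IsFunctionField K F] {c c' : K} (h : c ≠ c') (v : Place K F) :
    poles K (shiftInv hF c) v = 0 ∨ poles K (shiftInv hF c') v = 0 := by
  by_contra! hcon
  obtain ⟨h1, h2⟩ := hcon
  simp only [poles_apply, shiftInv, v.ord_inv, neg_neg] at h1 h2
  have e1 : jF hF - algebraMap K F c ∈ ordGe v 1 := mem_ordGe_of_le v (by omega)
  have e2 : jF hF - algebraMap K F c' ∈ ordGe v 1 := mem_ordGe_of_le v (by omega)
  have e3 := sub_mem e2 e1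
  rw [sub_sub_sub_cancel_left, ← map_sub] at e3
  have e4 := le_ord_of_mem_ordGe v ((_root_.map_ne_zero _).mpr (sub_ne_zero.mpr h)) e3
  rw [FF.ord_algebraMap] at e4
  omega

theorem shiftInv_mem_orderNonneg (c : K) :
    (shiftInv hF c : LaurentSeries K) ∈ orderNonneg K := by
  rw [coe_shiftInv]
  refine ((orderNonneg K).mem_or_inv_mem _).resolve_left fun h => ?_
  have h1 := h (-1) (by norm_num)
  rw [HahnSeries.coeff_sub, algebraMap_laurentSeries_eq_single, HahnSeries.coeff_single,
    if_neg (by norm_num), sub_zero, jqModC, HahnSeries.coeff_single_mul, one_mul, sub_neg_eq_add,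
    neg_add_cancel, show (0 : ℤ) = ((0 : ℕ) : ℤ) from rfl, HahnSeries.ofPowerSeries_apply_coeff,
    PowerSeries.coeff_zero_eq_constantCoeff, ← PowerSeries.coeff_zero_eq_constantCoeff,
    PowerSeries.coeff_map, PowerSeries.coeff_zero_eq_constantCoeff, constantCoeff_jNum,
    map_one] at h1
  exact one_ne_zero h1

/-- The place of the expansion, at which `q = 0`. -/
def infPlace [IsFunctionField K F] : Place K F :=
  placeOfValuationSubring ((orderNonneg K).comap F.val.toRingHom)
    (fun a => by
      show ((algebraMap K F a : F) : LaurentSeries K) ∈ orderNonneg K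
      rw [IntermediateField.coe_algebraMap_apply]
      exact algebraMap_mem_orderNonneg a)
    (fun h => by
      have h0 : jF hF ∈ (orderNonneg K).comap F.val.toRingHom := h ▸ ValuationSubring.mem_top _
      have h1 : (jF hF : LaurentSeries K) ∈ orderNonneg K := h0
      have h2 := h1 (-1) (by norm_num)
      rw [coe_jF, jqModC, HahnSeries.coeff_single_mul, one_mul, sub_neg_eq_add, neg_add_cancel,
        show (0 : ℤ) = ((0 : ℕ) : ℤ) from rfl, HahnSeries.ofPowerSeries_apply_coeff,
        PowerSeries.coeff_map, PowerSeries.coeff_zero_eq_constantCoeff, constantCoeff_jNum,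
        map_one] at h2
      exact one_ne_zero h2)

theorem mem_infPlace [IsFunctionField K F] (f : F) :
    f ∈ (infPlace hF).toValuationSubring ↔ (f : LaurentSeries K) ∈ orderNonneg K := Iff.rfl

theorem poles_shiftInv_infPlace [IsFunctionField K F] (c : K) :
    poles K (shiftInv hF c) (infPlace hF) = 0 := by
  have h := (mem_iff_ord (infPlace hF)
    (fun (e : shiftInv hF c = 0) =>
      transcendental_shiftInv hF c (by rw [e]; exact isAlgebraic_zero))).mp
    ((mem_infPlace hF _).mpr (shiftInv_mem_orderNonneg hF c))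
  rw [poles_apply]
  omega

/-- Order zero at the place of the expansion: no polar part and a constant term. -/
theorem coeff_zero_ne_zero_of_ord [IsFunctionField K F] {f : F} (hf : f ≠ 0)
    (h : (infPlace hF).ord f = 0) : ((f : F) : LaurentSeries K) ∈ orderNonneg K ∧
      ((f : F) : LaurentSeries K).coeff 0 ≠ 0 := by
  have h1 : (f : LaurentSeries K) ∈ orderNonneg K :=
    (mem_infPlace hF f).mp ((mem_iff_ord _ hf).mpr h.ge)
  have h2 : ((f⁻¹ : F) : LaurentSeries K) ∈ orderNonneg K :=
    (mem_infPlace hF _).mp ((mem_iff_ord _ (inv_ne_zero hf)).mpr (by rw [Place.ord_inv]; omega))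
  have hf' : (f : LaurentSeries K) ≠ 0 := fun e => hf (Subtype.ext e)
  rw [IntermediateField.coe_inv] at h2
  refine ⟨h1, ?_⟩
  have e1 := (mem_orderNonneg_iff hf').mp h1
  have e2 := (mem_orderNonneg_iff (inv_ne_zero hf')).mp h2
  rw [order_inv' hf'] at e2
  have e3 : (f : LaurentSeries K).order = 0 := by omega
  rw [← e3]
  exact HahnSeries.coeff_order_eq_zero.not.mpr hf'

end Field

section Series

variable {R K : Type*} [CommRing R] [Field K]

theorem coeffMap_ofPowerSeries' (φ : R →+* K) (p : PowerSeries R) :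
    coeffMap φ (HahnSeries.ofPowerSeries ℤ R p) = HahnSeries.ofPowerSeries ℤ K (p.map φ) := by
  ext k
  rw [coeffMap_coeff]
  rcases le_or_gt 0 k with hk | hk
  · lift k to ℕ using hk
    rw [HahnSeries.ofPowerSeries_apply_coeff, HahnSeries.ofPowerSeries_apply_coeff,
      PowerSeries.coeff_map]
  · rw [ofPowerSeries_coeff_of_neg _ hk, ofPowerSeries_coeff_of_neg _ hk, map_zero]

/-- An inverse of `j - c` over any ring. -/
theorem isUnit_jqModC_sub (c : R) : IsUnit (jqModC R - HahnSeries.single (0 : ℤ) c) := by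
  have he : jqModC R - HahnSeries.single (0 : ℤ) c = HahnSeries.single (-1 : ℤ) (1 : R) *
      HahnSeries.ofPowerSeries ℤ R
        (jNum.map (Int.castRingHom R) - PowerSeries.C c * PowerSeries.X) := by
    rw [map_sub, map_mul, HahnSeries.ofPowerSeries_X, HahnSeries.ofPowerSeries_C, mul_sub, jqModC,
      HahnSeries.C_apply, HahnSeries.single_mul_single, HahnSeries.single_mul_single]
    simp
  rw [he]
  refine IsUnit.mul (IsUnit.of_mul_eq_one (HahnSeries.single (1 : ℤ) (1 : R)) ?_) (IsUnit.map _ ?_)
  · rw [HahnSeries.single_mul_single, mul_one]; rfl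
  · rw [PowerSeries.isUnit_iff_constantCoeff, map_sub, map_mul, PowerSeries.constantCoeff_X,
      mul_zero, sub_zero, ← PowerSeries.coeff_zero_eq_constantCoeff, PowerSeries.coeff_map,
      PowerSeries.coeff_zero_eq_constantCoeff, constantCoeff_jNum, map_one]
    exact isUnit_one

theorem coeffMap_jqModC_sub (φ : R →+* K) (c : R) :
    coeffMap φ (jqModC R - HahnSeries.single (0 : ℤ) c) =
      jqModC K - algebraMap K (LaurentSeries K) (φ c) := by
  rw [map_sub, coeffMap_jqModC]
  congr 1
  ext k
  rw [coeffMap_coeff, algebraMap_laurentSeries_eq_single, HahnSeries.coeff_single,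
    HahnSeries.coeff_single, apply_ite φ, map_zero]

end Series

section Curve

variable {N : ℕ} [NeZero N] {A : ValuationSubring QBar}

local notation "Fb" => modularFunctionFieldBar N
local notation "Fk" => modularFunctionFieldFullC (ResidueField A) N

/-- An integral inverse to a series with unit constant term and no polar part. -/
theorem inv_mem_serInt {g : LaurentSeries QBar} (hg : g ∈ serInt A) (ho : g ∈ orderNonneg QBar)
    (h0 : (serRed A ⟨g, hg⟩).coeff 0 ≠ 0) :
    g⁻¹ ∈ serInt A ∧ g⁻¹ ∈ orderNonneg QBar := by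
  let p : PowerSeries A := PowerSeries.mk fun n => ⟨g.coeff n, mem_serInt.mp hg n⟩
  have hp : coeffMap A.subtype (HahnSeries.ofPowerSeries ℤ A p) = g := by
    ext k
    rw [coeffMap_coeff]
    rcases le_or_gt 0 k with hk | hk
    · lift k to ℕ using hk
      rw [HahnSeries.ofPowerSeries_apply_coeff, PowerSeries.coeff_mk]
      rfl
    · rw [ofPowerSeries_coeff_of_neg _ hk, map_zero, ho k hk]
  rw [coeff_serRed] at h0
  have hu : IsUnit p := by
    rw [PowerSeries.isUnit_iff_constantCoeff, ← PowerSeries.coeff_zero_eq_constantCoeff,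
      PowerSeries.coeff_mk]
    exact (residue_ne_zero_iff_isUnit _).mp h0
  obtain ⟨pi, hpi⟩ := isUnit_iff_exists_inv.mp hu
  have hinv : g⁻¹ = coeffMap A.subtype (HahnSeries.ofPowerSeries ℤ A pi) :=
    inv_eq_of_mul_eq_one_right (by rw [← hp, ← map_mul, ← map_mul, hpi, map_one, map_one])
  refine ⟨hinv ▸ ⟨_, rfl⟩, fun k hk => ?_⟩
  rw [hinv, coeffMap_coeff, ofPowerSeries_coeff_of_neg _ hk, map_zero]

/-- Integral series of the field lie in the lattice. -/
theorem exists_mem_lattice (hNA : (N : ResidueField A) ≠ 0) {f : Fb}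
    (hs : (f : LaurentSeries QBar) ∈ serInt A) :
    ∃ hm : f ∈ (goodRed hNA).S,
      (redF (goodRed hNA).toRedLattice ⟨f, hm⟩ : LaurentSeries (ResidueField A)) =
        serRed A ⟨_, hs⟩ := by
  obtain ⟨y, hy⟩ := hs
  obtain ⟨hm, hr⟩ := seriesCompat hNA y (hy ▸ f.2)
  have he : (⟨coeffMap A.subtype y, hy ▸ f.2⟩ : Fb) = f := Subtype.ext hy
  refine ⟨he ▸ hm, ?_⟩
  have hl : (⟨⟨coeffMap A.subtype y, hy ▸ f.2⟩, hm⟩ : (goodRed hNA).S) = ⟨f, he ▸ hm⟩ :=
    Subtype.ext he
  rw [← hl, hr, ← serRed_coeffMap y ⟨y, rfl⟩]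
  exact congrArg (serRed A) (Subtype.ext hy)

/-- A lattice element with bounded expansion has integral expansion. -/
theorem serInt_of_bdd {q : ℕ} (hA : A.LiesOverPrime q) (hq : q.Prime)
    (hNA : (N : ResidueField A) ≠ 0) (w : (goodRed (N := N) hNA).S)
    (hb : ((w : Fb) : LaurentSeries QBar) ∈ serBdd A) :
    ∃ hs : ((w : Fb) : LaurentSeries QBar) ∈ serInt A,
      (redF (goodRed hNA).toRedLattice w : LaurentSeries (ResidueField A)) =
        serRed A ⟨_, hs⟩ := by
  suffices hs : ((w : Fb) : LaurentSeries QBar) ∈ serInt A by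
    obtain ⟨hm, hr⟩ := exists_mem_lattice hNA hs
    exact ⟨hs, hr⟩
  rcases eq_or_ne ((w : Fb) : LaurentSeries QBar) 0 with h0 | h0
  · rw [h0]; exact zero_mem _
  obtain ⟨c, hc, g, hg, hwg⟩ :=
    isScalable_of_bdd hA hq hb (mem_finCoeff_full (hF := hFb) (w : Fb).2) h0
  by_cases hcA : c ∈ A
  · rw [hwg]; exact smul_mem_serInt hcA g.2
  exfalso
  have hci : c⁻¹ ∈ A := (A.mem_or_inv_mem c).resolve_left hcA
  set g' : Fb := c⁻¹ • (w : Fb) with hg'
  have hcoe : (g' : LaurentSeries QBar) = (g : LaurentSeries QBar) := by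
    rw [hg', Algebra.smul_def, MulMemClass.coe_mul, IntermediateField.coe_algebraMap_apply, hwg,
      ← Algebra.smul_def, ser_smul_smul, inv_mul_cancel₀ hc, ser_one_smul]
  obtain ⟨hm, hr⟩ := exists_mem_lattice hNA (f := g') (hcoe ▸ g.2)
  have hw : (⟨g', hm⟩ : (goodRed hNA).S) =
      ⟨_, smul_mem_lattice (goodRed hNA).toRedLattice ⟨c⁻¹, hci⟩ w.2⟩ := rfl
  have h2 : residue A (⟨c⁻¹, hci⟩ : A) = 0 := by
    rw [residue_eq_zero_iff_inv (by simpa using hc)]
    show (c⁻¹)⁻¹ ∉ A
    rwa [inv_inv]
  rw [hw, redF_smul, h2, zero_smul, ZeroMemClass.coe_zero] at hr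
  exact hg ((congrArg (serRed A) (Subtype.ext hcoe.symm)).trans hr.symm)

theorem shiftInv_serInt (c : A) :
    ∃ hs : (shiftInv (F := Fb) hFb (c : QBar) : LaurentSeries QBar) ∈ serInt A,
      serRed A ⟨_, hs⟩ = (shiftInv (K := ResidueField A) (N := N) (F := Fk) rfl (residue A c) :
        LaurentSeries (ResidueField A)) := by
  obtain ⟨y, hy⟩ := isUnit_iff_exists_inv'.mp (isUnit_jqModC_sub c)
  have h1 : coeffMap A.subtype y = (shiftInv (F := Fb) hFb (c : QBar) : LaurentSeries QBar) := by
    rw [coe_shiftInv]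
    refine eq_inv_of_mul_eq_one_left ?_
    have := congrArg (coeffMap A.subtype) hy
    rwa [map_mul, map_one, coeffMap_jqModC_sub] at this
  refine ⟨⟨y, h1⟩, ?_⟩
  rw [show (⟨_, ⟨y, h1⟩⟩ : serInt A) = ⟨coeffMap A.subtype y, ⟨y, rfl⟩⟩ from Subtype.ext h1.symm,
    serRed_coeffMap, coe_shiftInv]
  refine eq_inv_of_mul_eq_one_left ?_
  have := congrArg (coeffMap (residue A)) hy
  rwa [map_mul, map_one, coeffMap_jqModC_sub] at this

variable [IsFunctionField QBar (modularFunctionFieldBar N)]
  [IsFunctionField (ResidueField A) (modularFunctionFieldFullC (ResidueField A) N)]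

/-- Reduction of the zeros of `j - c`. -/
theorem redDiv_poles_shiftInv (hNA : (N : ResidueField A) ≠ 0) (c : A) :
    redDiv (goodRed hNA) (poles QBar (shiftInv (F := Fb) hFb (c : QBar))) =
      poles (ResidueField A)
        (shiftInv (K := ResidueField A) (N := N) (F := Fk) rfl (residue A c)) := by
  obtain ⟨hs, hred⟩ := shiftInv_serInt (N := N) c
  obtain ⟨hm, hr⟩ := exists_mem_lattice hNA hs
  have hr' : redF (goodRed hNA).toRedLattice ⟨_, hm⟩ =
      shiftInv (K := ResidueField A) (N := N) (F := Fk) rfl (residue A c) :=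
    Subtype.ext (hr.trans hred)
  have hd := redDiv_div (goodRed hNA) ⟨_, hm⟩ (by
    rw [hr']; exact fun e => transcendental_shiftInv _ _ (by rw [e]; exact isAlgebraic_zero))
  rw [hr'] at hd
  refine (eq_of_le_of_degree_le (Finsupp.le_def.mpr fun v => ?_) ?_).symm
  · have hz : 0 ≤ redDiv (goodRed hNA) (poles QBar (shiftInv (F := Fb) hFb (c : QBar))) +
        div (ResidueField A)
          (shiftInv (K := ResidueField A) (N := N) (F := Fk) rfl (residue A c)) := by
      rw [← hd, ← map_add]
      refine redDiv_nonneg _ (Finsupp.le_def.mpr fun w => ?_)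
      simp only [Finsupp.coe_zero, Pi.zero_apply, Finsupp.add_apply, poles_apply, div_apply]
      omega
    have h1 := Finsupp.le_def.mp hz v
    have h2 := Finsupp.le_def.mp (redDiv_nonneg (goodRed hNA)
      (poles_nonneg (shiftInv (F := Fb) hFb (c : QBar)))) v
    simp only [Finsupp.coe_zero, Pi.zero_apply, Finsupp.add_apply, div_apply] at h1 h2
    rw [poles_apply]
    omega
  · rw [degree_redDiv, degree_poles_shiftInv, degree_poles_shiftInv, finrank_residue_j hNA]

end Curve

end Fermat.Agent.FiniteFlat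

end
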