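import Fermat.Agent.GaloisReps.Flat
import Fermat.Agent.Mazur.Eisenstein.Inputs

/-!
# Finite flat models from the Galois orders on the torsion of `J₀(N)`

Consequences of `Mazur.Eisenstein.OrderProperty N`: finite flat Hopf algebras over `ℤ_(ℓ)` with
points the `ℓ`-power torsion of `J₀(N)`, and flatness at `p ∤ N` of Hecke–Galois data.
-/

set_option autoImplicit false
set_option linter.style.haveILetI false

noncomputable section

open ModularCurve
open Fermat.Agent.Arith

namespace Fermat.Agent.FiniteFlat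

variable {N : ℕ} [NeZero N]

/-- A Galois order on a module containing the `ℓ ^ k`-torsion of `J₀(N)`. -/
theorem exists_galOrder_torsion (hN : Mazur.Eisenstein.OrderProperty N) {ℓ : ℕ} (hℓ : ℓ.Prime)
    (hℓN : ¬ ℓ ∣ N) (k : ℕ) :
    ∃ (M : Type) (_ : AddCommGroup M) (_ : DistribMulAction GQ M) (_ : Finite M)
      (i : M →+ JZero N) (_ : GalOrder ℓ M),
      Function.Injective i ∧ (∀ (g : GQ) (x : M), i (g • x) = g • i x) ∧
      ∀ x : JZero N, ((ℓ ^ k : ℕ) : ℤ) • x = 0 → x ∈ i.range := by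
  obtain ⟨A, hA⟩ := exists_liesOverPrime hℓ
  obtain ⟨M, i₁, i₂, i₃, i, O, hi, hσ, hrange, -⟩ := hN ℓ hℓ hℓN A hA k
  exact ⟨M, i₁, i₂, i₃, i, O, hi, hσ, fun x hx => hrange x (by rwa [natCast_zsmul] at hx)⟩

/-- The finite flat model of `J₀(N)[ℓ ^ k]` over `ℤ_(ℓ)`. -/
theorem exists_hopfAlgebra_torsion (hN : Mazur.Eisenstein.OrderProperty N) {ℓ : ℕ} (hℓ : ℓ.Prime)
    (hℓN : ¬ ℓ ∣ N) (k : ℕ) :
    ∃ (H : Type) (_ : CommRing H) (_ : HopfAlgebra (GaloisRep.ratLocalizedAt ℓ) H),
      Module.Finite (GaloisRep.ratLocalizedAt ℓ) H ∧ Module.Flat (GaloisRep.ratLocalizedAt ℓ) H ∧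
      Coalgebra.IsCocomm (GaloisRep.ratLocalizedAt ℓ) H ∧
      ∃ e : WithConv (H →ₐ[GaloisRep.ratLocalizedAt ℓ] AlgebraicClosure ℚ) ≃
          ↥(Submodule.torsionBy ℤ (JZero N) ((ℓ : ℤ) ^ k)),
        (∀ f g, e (f * g) = e f + e g) ∧
        ∀ (σ : AlgebraicClosure ℚ ≃ₐ[ℚ] AlgebraicClosure ℚ)
          (f g : WithConv (H →ₐ[GaloisRep.ratLocalizedAt ℓ] AlgebraicClosure ℚ)),
          (∀ h : H, g h = σ (f h)) → ((e g : JZero N)) = σ • (e f : JZero N) := by
  obtain ⟨M, _, _, _, i, O, hi, hσ, hrange⟩ := exists_galOrder_torsion hN hℓ hℓN k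
  let X := Submodule.torsionBy ℤ (JZero N) ((ℓ : ℤ) ^ k)
  have hmem : ∀ x : X, (x : JZero N) ∈ i.range := fun x =>
    hrange _ (by rw [Nat.cast_pow]; exact (Submodule.mem_torsionBy_iff _ _).mp x.2)
  letI : DistribMulAction GQ X :=
    { smul := fun σ x => ⟨σ • (x : JZero N), (Submodule.mem_torsionBy_iff _ _).mpr (by
        rw [← smul_zsmul' σ, (Submodule.mem_torsionBy_iff _ _).mp x.2, smul_zero])⟩
      one_smul := fun x => Subtype.ext (one_smul GQ (x : JZero N))
      mul_smul := fun σ τ x => Subtype.ext (mul_smul σ τ (x : JZero N))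
      smul_zero := fun σ => Subtype.ext (smul_zero (A := JZero N) σ)
      smul_add := fun σ x y => Subtype.ext (smul_add σ (x : JZero N) (y : JZero N)) }
  let j : X →+ M :=
    { toFun := fun x => (hmem x).choose
      map_zero' := hi (by rw [(hmem 0).choose_spec, map_zero]; rfl)
      map_add' := fun x y => hi (by
        rw [map_add, (hmem (x + y)).choose_spec, (hmem x).choose_spec, (hmem y).choose_spec]; rfl) }
  have hj : ∀ x : X, i (j x) = x := fun x => (hmem x).choose_spec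
  have hjinj : Function.Injective j := fun x y h => Subtype.ext (by rw [← hj x, ← hj y, h])
  have : Finite X := Finite.of_injective j hjinj
  obtain ⟨H, a, b, hfin, hflat, hcoc, e, hadd, hgal⟩ :=
    (O.restrict j hjinj fun σ x => hi (by rw [hσ, hj, hj]; rfl)).exists_hopfAlgebra
  exact ⟨H, a, b, hfin, hflat, hcoc, e, hadd,
    fun σ f g h => congrArg Subtype.val (hgal σ f g h)⟩
where
  smul_zsmul' (σ : GQ) {m : ℤ} {x : JZero N} : σ • (m • x) = m • (σ • x) :=
    map_zsmul (DistribSMul.toAddMonoidHom (JZero N) σ) m x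

variable {p : ℕ} [Fact p.Prime] {S : Finset ℕ}
  {O : Type} [CommRing O] [IsDomain O] [IsDiscreteValuationRing O]
  [IsAdicComplete (IsLocalRing.maximalIdeal O) O]
  {θ : CuspForm.heckeAlgebra N 2 (↑S : Set ℕ) →+* IsLocalRing.ResidueField O}
  {T : Type} [CommRing T] [IsLocalRing T] [IsNoetherianRing T]
  [IsAdicComplete (IsLocalRing.maximalIdeal T) T] [Algebra O T] [IsLocalHom (algebraMap O T)]
  [Module.Finite O T] [Module.Free O T]

/-- Hecke–Galois data of level prime to `p` are flat at `p`, for every prime `p`. -/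
theorem isFlatAt_of_orderProperty [Finite (IsLocalRing.ResidueField O)]
    (hN : Mazur.Eisenstein.OrderProperty N) (hES : GaloisReps.CongruenceProperty N p)
    (hpN : ¬ p ∣ N) (hpO : (p : O) ∈ IsLocalRing.maximalIdeal O)
    (H : CuspForm.HeckeGaloisRepDatum N (↑S : Set ℕ) O θ T) :
    H.ρ.IsFlatAt p := by
  refine GaloisReps.isFlatAt_of_congruence hES hpO H fun k => ?_
  obtain ⟨M, a, b, hfin, i, OM, hi, hσ, hrange⟩ :=
    exists_galOrder_torsion hN (Fact.out : p.Prime) hpN k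
  have hmem : ∀ x : GaloisReps.JTors N p k, (x : JZero N) ∈ i.range := fun x =>
    hrange _ (AlgebraicCurve.Pic0.mem_torsion.mp x.2)
  choose j hj using hmem
  refine ⟨M, a, b, AddMonoidHom.mk' j fun x y => hi (by rw [map_add, hj, hj, hj]; rfl),
    fun x y h => Subtype.ext (by rw [← hj x, ← hj y]; exact congrArg i h),
    fun σ x => hi (by
      show i (j _) = i (σ • j x)
      rw [hσ, hj, hj]; rfl), ⟨OM⟩⟩

end Fermat.Agent.FiniteFlat

end
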